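import Mathlib

/-!
# A maximum principle on `Γ₀(N) \ ℍ`

A holomorphic function `Φ` on the upper half plane whose real part is `Γ₀(N)`-invariant, which is
invariant under the parabolic elements of `Γ₀(N)` and which has a limit at every cusp is constant.
(Apply the maximum modulus principle to the `q_N`-expansions of the conjugates of `exp ∘ Φ`.)
-/

set_option autoImplicit false
set_option linter.style.haveILetI false

namespace Fermat.Agent.S21Lib

open UpperHalfPlane Matrix.SpecialLinearGroup CongruenceSubgroup Function Metric Filter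
open scoped MatrixGroups Manifold Topology

local notation "𝕢" => Periodic.qParam

/-- Conjugates of `T ^ N` lie in `Γ₀(N)` and are parabolic. -/
theorem maxMod_conj_T_pow (N : ℕ) (δ : SL(2, ℤ)) :
    δ * ModularGroup.T ^ (N : ℤ) * δ⁻¹ ∈ Gamma0 N ∧
      ((δ * ModularGroup.T ^ (N : ℤ) * δ⁻¹ : SL(2, ℤ)) : Matrix (Fin 2) (Fin 2) ℤ).trace ^ 2
        = 4 := by
  constructor
  · have h1 : ModularGroup.T ^ (N : ℤ) ∈ CongruenceSubgroup.Gamma N := by
      simpa using ModularGroup_T_pow_mem_Gamma N N dvd_rfl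
    have h2 := (Gamma_normal N).conj_mem _ h1 δ
    rw [Gamma_mem] at h2
    rw [Gamma0_mem]
    exact h2.2.2.1
  · have h : ((δ * ModularGroup.T ^ (N : ℤ) * δ⁻¹ : SL(2, ℤ)) :
        Matrix (Fin 2) (Fin 2) ℤ).trace = 2 := by
      rw [Matrix.SpecialLinearGroup.coe_mul, Matrix.trace_mul_comm,
        ← Matrix.SpecialLinearGroup.coe_mul, inv_mul_cancel_left, ModularGroup.coe_T_zpow]
      simp [Matrix.trace_fin_two]
    rw [h]; norm_num

/-- **Maximum principle.** -/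
theorem maxMod_const (N : ℕ) [NeZero N] (Φ : ℍ → ℂ) (hhol : MDiff Φ)
    (hinv : ∀ γ : SL(2, ℤ), γ ∈ Gamma0 N → ∀ u : ℍ, (Φ (γ • u)).re = (Φ u).re)
    (hpar : ∀ γ : SL(2, ℤ), γ ∈ Gamma0 N →
      (γ : Matrix (Fin 2) (Fin 2) ℤ).trace ^ 2 = 4 → ∀ u : ℍ, Φ (γ • u) = Φ u)
    (hlim : ∀ δ : SL(2, ℤ), ∃ L : ℂ, Tendsto (fun w : ℍ => Φ (δ • w)) atImInfty (𝓝 L)) :
    ∀ z w : ℍ, Φ z = Φ w := by
  classical
  have hN : (0 : ℝ) < N := by exact_mod_cast Nat.pos_of_ne_zero (NeZero.ne N)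
  have hΦc : DifferentiableOn ℂ (Φ ∘ ofComplex) {z : ℂ | 0 < z.im} := mdifferentiable_iff.1 hhol
  set E : ℍ → ℂ := fun u => Complex.exp (Φ u) with hE
  have hEhol : MDiff E := by
    rw [mdifferentiable_iff]
    exact hΦc.cexp
  have hEinv : ∀ γ : SL(2, ℤ), γ ∈ Gamma0 N → ∀ u : ℍ, ‖E (γ • u)‖ = ‖E u‖ := by
    intro γ hγ u
    simp only [hE, Complex.norm_exp, hinv γ hγ u]
  -- the conjugates of `E`, indexed by the cosets of `Γ₀(N)`
  haveI : Finite (SL(2, ℤ) ⧸ Gamma0 N) := Subgroup.finite_quotient_of_finiteIndex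
  letI : Fintype (SL(2, ℤ) ⧸ Gamma0 N) := Fintype.ofFinite _
  set Eq : SL(2, ℤ) ⧸ Gamma0 N → ℍ → ℂ := fun q τ => E ((Quotient.out q)⁻¹ • τ) with hEq
  have hEq_hol : ∀ q, MDiff (Eq q) := by
    intro q
    have h1 : MDiff (fun τ : ℍ => (mapGL ℝ (Quotient.out q)⁻¹ : GL (Fin 2) ℝ) • τ) :=
      mdifferentiable_smul (by simp)
    exact hEhol.comp h1
  have hEq_bdd : ∀ q, IsBoundedAtImInfty (Eq q) := by
    intro q
    obtain ⟨L, hL⟩ := hlim (Quotient.out q)⁻¹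
    have h1 : Tendsto (Eq q) atImInfty (𝓝 (Complex.exp L)) :=
      (Complex.continuous_exp.tendsto L).comp hL
    exact h1.isBigO_one ℝ
  have hEq_per : ∀ q, Periodic (Eq q ∘ ofComplex) (N : ℂ) := by
    intro q w
    by_cases hw : 0 < w.im
    · have hw' : 0 < (w + (N : ℂ)).im := by simpa using hw
      simp only [comp_apply, ofComplex_apply_of_im_pos hw', ofComplex_apply_of_im_pos hw]
      have h1 : (⟨w + (N : ℂ), hw'⟩ : ℍ) = ModularGroup.T ^ (N : ℤ) • (⟨w, hw⟩ : ℍ) := by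
        apply UpperHalfPlane.ext
        rw [ModularGroup.coe_T_zpow_smul_eq]
        simp
      rw [h1]
      have h2 : (Quotient.out q)⁻¹ • (ModularGroup.T ^ (N : ℤ) • (⟨w, hw⟩ : ℍ)) =
          ((Quotient.out q)⁻¹ * ModularGroup.T ^ (N : ℤ) * ((Quotient.out q)⁻¹)⁻¹) •
            ((Quotient.out q)⁻¹ • (⟨w, hw⟩ : ℍ)) := by
        rw [← mul_smul, ← mul_smul, inv_mul_cancel_right]
      show E ((Quotient.out q)⁻¹ • (ModularGroup.T ^ (N : ℤ) • (⟨w, hw⟩ : ℍ))) =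
        E ((Quotient.out q)⁻¹ • (⟨w, hw⟩ : ℍ))
      rw [h2]
      simp only [hE]
      rw [hpar _ (maxMod_conj_T_pow N _).1 (maxMod_conj_T_pow N _).2]
    · have hw0 : w.im ≤ 0 := not_lt.1 hw
      have hw' : (w + (N : ℂ)).im ≤ 0 := by simpa using hw0
      simp [ofComplex_apply_of_im_nonpos hw', ofComplex_apply_of_im_nonpos hw0]
  have hperm : ∀ (γ : SL(2, ℤ)) (q : SL(2, ℤ) ⧸ Gamma0 N) (τ : ℍ),
      ‖Eq (γ • q) (γ • τ)‖ = ‖Eq q τ‖ := by
    intro γ q τ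
    have h1 : γ • q = ((γ * Quotient.out q : SL(2, ℤ)) : SL(2, ℤ) ⧸ Gamma0 N) := by
      conv_lhs => rw [← QuotientGroup.out_eq' q]
      rfl
    obtain ⟨h, hh⟩ := QuotientGroup.mk_out_eq_mul (Gamma0 N) (γ * Quotient.out q)
    have h2 : (Quotient.out (γ • q))⁻¹ • (γ • τ) =
        ((h : SL(2, ℤ))⁻¹) • ((Quotient.out q)⁻¹ • τ) := by
      rw [h1, hh, ← mul_smul, ← mul_smul]
      congr 1
      group
    show ‖E ((Quotient.out (γ • q))⁻¹ • (γ • τ))‖ = ‖E ((Quotient.out q)⁻¹ • τ)‖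
    rw [h2, hEinv _ ((Gamma0 N).inv_mem h.2)]
  -- the vector of cusp functions
  set G : ℂ → EuclideanSpace ℂ (SL(2, ℤ) ⧸ Gamma0 N) :=
    fun p => WithLp.toLp 2 (fun q => cuspFunction N (Eq q) p) with hG
  have hG_diff : DifferentiableOn ℂ G (ball 0 1) := by
    rw [differentiableOn_euclidean]
    intro q
    exact differentiableOn_cuspFunction_ball hN (hEq_per q) (hEq_hol q) (hEq_bdd q)
  have hG_apply : ∀ (τ : ℍ) (q : SL(2, ℤ) ⧸ Gamma0 N), (G (𝕢 N τ)).ofLp q = Eq q τ := by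
    intro τ q
    simp only [hG]
    exact eq_cuspFunction τ hN.ne' (hEq_per q)
  have hG_norm : ∀ τ : ℍ, ‖G (𝕢 N τ)‖ ^ 2 = ∑ q, ‖Eq q τ‖ ^ 2 := by
    intro τ
    rw [EuclideanSpace.norm_sq_eq]
    exact Finset.sum_congr rfl fun q _ => by rw [hG_apply]
  have hr1 : Real.exp (-Real.pi / N) < 1 := by
    rw [← Real.exp_zero]
    exact Real.exp_lt_exp.2 (div_neg_of_neg_of_pos (neg_lt_zero.2 Real.pi_pos) hN)
  have hconst := Complex.eq_const_of_exists_le hG_diff (Real.exp_nonneg (-Real.pi / N)) hr1 (by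
    intro p hp
    rcases eq_or_ne p 0 with rfl | hp0
    · exact ⟨0, by simp [Real.exp_nonneg], le_rfl⟩
    · have hp1 : ‖p‖ < 1 := mem_ball_zero_iff.mp hp
      obtain ⟨τ, hτ⟩ : ∃ τ : ℍ, 𝕢 N (τ : ℂ) = p :=
        ⟨⟨Periodic.invQParam N p, Periodic.im_invQParam_pos_of_norm_lt_one hN hp1 hp0⟩,
          Periodic.qParam_right_inv hN.ne' hp0⟩
      obtain ⟨γ, hγ⟩ := ModularGroup.exists_one_half_le_im_smul τ
      refine ⟨𝕢 N ((γ • τ : ℍ) : ℂ), ?_, ?_⟩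
      · rw [mem_closedBall_zero_iff, Periodic.norm_qParam]
        apply Real.exp_le_exp.2
        rw [div_le_div_iff_of_pos_right hN]
        have hpi := Real.pi_pos
        have : (1 / 2 : ℝ) ≤ ((γ • τ : ℍ) : ℂ).im := hγ
        nlinarith
      · rw [← hτ]
        apply le_of_eq
        have hsq : ‖G (𝕢 N (τ : ℂ))‖ ^ 2 = ‖G (𝕢 N ((γ • τ : ℍ) : ℂ))‖ ^ 2 := by
          rw [hG_norm, hG_norm]
          calc ∑ q, ‖Eq q τ‖ ^ 2 = ∑ q, ‖Eq (γ • q) (γ • τ)‖ ^ 2 :=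
                Finset.sum_congr rfl fun q _ => by rw [hperm]
            _ = ∑ q, ‖Eq q (γ • τ)‖ ^ 2 :=
                Equiv.sum_comp (MulAction.toPerm γ) (fun q => ‖Eq q (γ • τ)‖ ^ 2)
        exact (pow_left_inj₀ (norm_nonneg _) (norm_nonneg _) two_ne_zero).1 hsq)
  -- `E` is constant
  have hEc : ∃ c : ℂ, ∀ u : ℍ, E u = c := by
    refine ⟨(G 0).ofLp ((1 : SL(2, ℤ)) : SL(2, ℤ) ⧸ Gamma0 N), fun u => ?_⟩
    have h1 : 𝕢 N ((Quotient.out ((1 : SL(2, ℤ)) : SL(2, ℤ) ⧸ Gamma0 N) • u : ℍ) : ℂ) ∈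
        ball (0 : ℂ) 1 := by
      rw [mem_ball_zero_iff]
      exact Periodic.norm_qParam_lt_one hN (UpperHalfPlane.im_pos _)
    have h2 := hconst h1
    have h3 := hG_apply (Quotient.out ((1 : SL(2, ℤ)) : SL(2, ℤ) ⧸ Gamma0 N) • u)
      ((1 : SL(2, ℤ)) : SL(2, ℤ) ⧸ Gamma0 N)
    rw [h2] at h3
    simp only [hEq, inv_smul_smul, const_apply] at h3
    exact h3.symm
  obtain ⟨c, hc⟩ := hEc
  have hderiv : Set.EqOn (deriv (Φ ∘ ofComplex)) 0 {z : ℂ | 0 < z.im} := by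
    intro z hz
    have hd : HasDerivAt (Φ ∘ ofComplex) (deriv (Φ ∘ ofComplex) z) z :=
      (hΦc.differentiableAt (isOpen_upperHalfPlaneSet.mem_nhds hz)).hasDerivAt
    have h1 := hd.cexp
    have h2 : (fun x => Complex.exp ((Φ ∘ ofComplex) x)) =ᶠ[𝓝 z] fun _ => c := by
      filter_upwards [isOpen_upperHalfPlaneSet.mem_nhds hz] with x _
      exact hc (ofComplex x)
    have h3 : HasDerivAt (fun x => Complex.exp ((Φ ∘ ofComplex) x)) 0 z :=
      (hasDerivAt_const z c).congr_of_eventuallyEq h2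
    have h4 := h1.unique h3
    exact (mul_eq_zero.1 h4).resolve_left (Complex.exp_ne_zero _)
  intro z w
  have h := isOpen_upperHalfPlaneSet.is_const_of_deriv_eq_zero
    (convex_halfSpace_im_gt 0).isPreconnected hΦc hderiv z.im_pos w.im_pos
  simpa using h

end Fermat.Agent.S21Lib
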