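import Fermat.Agent.Lib.S21.Period

/-!
# Injectivity of the Eichler–Shimura pair map
-/

set_option autoImplicit false

open Complex Filter Function
open UpperHalfPlane hiding I
open scoped Manifold Topology Real MatrixGroups ModularForm ComplexConjugate
open Matrix.SpecialLinearGroup CongruenceSubgroup

namespace Fermat.Agent.S21Lib

open Fermat.Agent.H4 ModularCurve ModularCurve.Period

/-- Finitely many right coset representatives of `Γ₀(N)` in `SL(2, ℤ)`. -/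
theorem exists_coset_reps (N : ℕ) [NeZero N] :
    ∃ R : Finset SL(2, ℤ), R.Nonempty ∧
      ∀ g : SL(2, ℤ), ∃ γ ∈ Gamma0 N, ∃ δ ∈ R, g = γ * δ := by
  classical
  haveI : Fintype (SL(2, ℤ) ⧸ Gamma0 N) := Subgroup.fintypeQuotientOfFiniteIndex
  refine ⟨Finset.univ.image (fun q : SL(2, ℤ) ⧸ Gamma0 N => (Quotient.out q)⁻¹), ?_, ?_⟩
  · exact ⟨_, Finset.mem_image_of_mem _
      (Finset.mem_univ (((1 : SL(2, ℤ)) : SL(2, ℤ) ⧸ Gamma0 N)))⟩
  · intro g
    obtain ⟨h, hh⟩ := QuotientGroup.mk_out_eq_mul (Gamma0 N) g⁻¹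
    refine ⟨h, h.2, (((g⁻¹ : SL(2, ℤ)) : SL(2, ℤ) ⧸ Gamma0 N)).out⁻¹,
      Finset.mem_image_of_mem _ (Finset.mem_univ _), ?_⟩
    rw [hh]
    group

theorem periodic_comp_ofComplex_of_vadd {E : ℍ → ℂ} {h : ℝ}
    (hE : ∀ w : ℍ, E (h +ᵥ w) = E w) : Periodic (E ∘ ofComplex) h := by
  intro u
  by_cases hu : 0 < u.im
  · have hu' : 0 < (u + h).im := by simpa using hu
    simp only [comp_apply]
    have e : ofComplex (u + h) = h +ᵥ ofComplex u := by
      apply UpperHalfPlane.ext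
      rw [coe_vadd, ofComplex_apply_of_im_pos hu', ofComplex_apply_of_im_pos hu]
      simp [add_comm]
    rw [e, hE]
  · have hu0 : u.im ≤ 0 := not_lt.mp hu
    have hu' : (u + h).im ≤ 0 := by simpa using hu0
    simp [comp_apply, ofComplex_apply_of_im_nonpos hu', ofComplex_apply_of_im_nonpos hu0]

/-- **Maximum principle on the compactified modular curve.** A holomorphic function on `ℍ`
whose real part is `Γ₀(N)`-invariant, which is `N`-periodic at every cusp and has a limit at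
every cusp, has vanishing derivative. -/
theorem deriv_eq_zero_of_re_invariant (N : ℕ) [NeZero N] {Φ φ : ℍ → ℂ} (hΦ : IsPrim Φ φ)
    (hinv : ∀ γ : SL(2, ℤ), γ ∈ Gamma0 N → ∀ z : ℍ, (Φ (γ • z)).re = (Φ z).re)
    (hper : ∀ (δ : SL(2, ℤ)) (w : ℍ), Φ (δ • ((N : ℝ) +ᵥ w)) = Φ (δ • w))
    (hlim : ∀ δ : SL(2, ℤ), ∃ L : ℂ, Tendsto (fun w : ℍ => Φ (δ • w)) atImInfty (𝓝 L))
    (z : ℍ) : φ z = 0 := by
  have hN : (0 : ℝ) < N := by exact_mod_cast Nat.pos_of_ne_zero (NeZero.ne N)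
  set E : SL(2, ℤ) → ℍ → ℂ := fun δ w => cexp (Φ (δ • w)) with hE
  have hEper : ∀ δ, Periodic (E δ ∘ ofComplex) (N : ℝ) := fun δ =>
    periodic_comp_ofComplex_of_vadd fun w => by simp only [hE, hper δ w]
  have hEderiv : ∀ (δ : SL(2, ℤ)) (w : ℍ), HasDerivAt (E δ ∘ ofComplex)
      (cexp (Φ (δ • w)) * (φ ∣[(2 : ℤ)] (mapGL ℝ δ : GL (Fin 2) ℝ)) w) (w : ℂ) := by
    intro δ w
    have h1 := hasDerivAt_comp_smul hΦ (mapGL ℝ δ) (det_mapGL_pos δ) w
    have h2 := h1.cexp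
    rw [ofComplex_apply] at h2
    exact h2
  have hEhol : ∀ δ, MDifferentiable 𝓘(ℂ) 𝓘(ℂ) (E δ) := by
    intro δ
    rw [UpperHalfPlane.mdifferentiable_iff]
    intro u hu
    exact (hEderiv δ ⟨u, hu⟩).differentiableAt.differentiableWithinAt
  have hEbdd : ∀ δ, IsBoundedAtImInfty (E δ) := by
    intro δ
    obtain ⟨L, hL⟩ := hlim δ
    have : Tendsto (E δ) atImInfty (𝓝 (cexp L)) := (Complex.continuous_exp.tendsto L).comp hL
    exact this.isBigO_one ℝ
  set c : SL(2, ℤ) → ℂ → ℂ := fun δ => cuspFunction (N : ℝ) (E δ) with hc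
  have hcd : ∀ δ, DifferentiableOn ℂ (c δ) (Metric.ball 0 1) := fun δ =>
    differentiableOn_cuspFunction_ball hN (hEper δ) (hEhol δ) (hEbdd δ)
  have hceq : ∀ δ (w : ℍ), c δ (Periodic.qParam (N : ℝ) w) = E δ w := fun δ w =>
    eq_cuspFunction w hN.ne' (hEper δ)
  obtain ⟨R, hRne, hR⟩ := exists_coset_reps N
  set r : ℝ := Real.exp (-π / N) with hr
  have hr0 : 0 ≤ r := (Real.exp_pos _).le
  have hr1 : r < 1 := by
    rw [hr, Real.exp_lt_one_iff]
    exact div_neg_of_neg_of_pos (neg_lt_zero.mpr Real.pi_pos) hN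
  have hmax : ∀ δ, ∃ q ∈ Metric.closedBall (0 : ℂ) r,
      ∀ q' ∈ Metric.closedBall (0 : ℂ) r, ‖c δ q'‖ ≤ ‖c δ q‖ := by
    intro δ
    obtain ⟨q, hq, hqmax⟩ := (isCompact_closedBall (0 : ℂ) r).exists_isMaxOn
      (Metric.nonempty_closedBall.mpr hr0)
      ((hcd δ).continuousOn.mono (Metric.closedBall_subset_ball hr1)).norm
    exact ⟨q, hq, fun q' hq' => hqmax hq'⟩
  choose qm hqm hqmax using hmax
  obtain ⟨δ₀, hδ₀R, hδ₀⟩ := Finset.exists_max_image R (fun δ => ‖c δ (qm δ)‖) hRne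
  -- the global bound
  have hbound : ∀ z : ℍ, ‖cexp (Φ z)‖ ≤ ‖c δ₀ (qm δ₀)‖ := by
    intro z
    obtain ⟨g, hg⟩ := ModularGroup.exists_one_half_le_im_smul z
    obtain ⟨γ, hγ, δ, hδ, hgd⟩ := hR g⁻¹
    have hz : z = γ • (δ • (g • z)) := by
      rw [← mul_smul, ← mul_smul, ← hgd, inv_mul_cancel, one_smul]
    have h1 : ‖cexp (Φ z)‖ = ‖E δ (g • z)‖ := by
      rw [Complex.norm_exp, hE, Complex.norm_exp]
      congr 1
      conv_lhs => rw [hz]
      exact hinv γ hγ _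
    rw [h1, ← hceq δ (g • z)]
    refine le_trans (hqmax δ _ ?_) (hδ₀ δ hδ)
    rw [mem_closedBall_zero_iff, Periodic.norm_qParam, hr, Real.exp_le_exp]
    have him : 1 / 2 ≤ ((g • z : ℍ) : ℂ).im := hg
    rw [div_le_div_iff_of_pos_right hN]
    nlinarith [Real.pi_pos]
  -- the cusp function at `δ₀` is constant
  have hconst : Set.EqOn (c δ₀) (Function.const ℂ (c δ₀ 0)) (Metric.ball 0 1) := by
    refine Complex.eq_const_of_exists_le (hcd δ₀) hr0 hr1 (fun q hq => ?_)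
    rcases eq_or_ne q 0 with rfl | hq0
    · exact ⟨0, by simpa using hr0, le_rfl⟩
    · refine ⟨qm δ₀, hqm δ₀, ?_⟩
      have him : 0 < (Periodic.invQParam (N : ℝ) q).im :=
        Periodic.im_invQParam_pos_of_norm_lt_one hN (mem_ball_zero_iff.mp hq) hq0
      have := hceq δ₀ ⟨_, him⟩
      rw [UpperHalfPlane.coe_mk, Periodic.qParam_right_inv hN.ne' hq0] at this
      rw [this]
      exact hbound _
  have hEconst : ∀ w : ℍ, cexp (Φ w) = c δ₀ 0 := by
    intro w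
    have h1 : cexp (Φ w) = E δ₀ (δ₀⁻¹ • w) := by
      simp only [hE]
      rw [← mul_smul, mul_inv_cancel, one_smul]
    rw [h1, ← hceq δ₀]
    refine hconst ?_
    rw [mem_ball_zero_iff]
    exact Periodic.norm_qParam_lt_one hN (δ₀⁻¹ • w).im_pos
  -- differentiate
  have h1 : HasDerivAt (fun u : ℂ => cexp ((Φ ∘ ofComplex) u)) (cexp (Φ z) * φ z) (z : ℂ) := by
    have := (hΦ z).cexp
    simpa only [comp_apply, ofComplex_apply] using this
  have h2 : HasDerivAt (fun u : ℂ => cexp ((Φ ∘ ofComplex) u)) 0 (z : ℂ) := by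
    have : (fun u : ℂ => cexp ((Φ ∘ ofComplex) u)) = fun _ => c δ₀ 0 := by
      funext u
      exact hEconst _
    rw [this]
    exact hasDerivAt_const _ _
  have h3 := h1.unique h2
  exact (mul_eq_zero.mp h3).resolve_left (Complex.exp_ne_zero _)

/-- `z ↦ conj (G (-conj z))` is again a primitive. -/
theorem isPrim_conj_J {G g : ℍ → ℂ} (hG : IsPrim G g) :
    IsPrim (fun z => conj (G (J • z))) (fun z => -conj (g (J • z))) := by
  intro z
  have h1 : HasDerivAt (G ∘ ofComplex) (g (J • z)) (-conj (z : ℂ)) := by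
    have := hG (J • z)
    rwa [coe_J_smul] at this
  have h2 : HasDerivAt (fun v : ℂ => (G ∘ ofComplex) (-v)) (-g (J • z)) (conj (z : ℂ)) := by
    have hneg : HasDerivAt (fun v : ℂ => -v) (-1) (conj (z : ℂ)) := hasDerivAt_neg _
    have := HasDerivAt.comp (conj (z : ℂ)) h1 hneg
    rw [mul_neg_one] at this
    exact this
  have h3 := h2.conj_conj
  rw [Complex.conj_conj] at h3
  refine (h3.congr_of_eventuallyEq ?_).congr_deriv (by simp)
  filter_upwards [isOpen_upperHalfPlaneSet.mem_nhds z.im_pos] with u hu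
  simp only [comp_apply]
  rw [J_smul, ofComplex_apply_of_im_pos hu]

theorem tendsto_J_atImInfty : Tendsto (fun w : ℍ => J • w) atImInfty atImInfty := by
  rw [atImInfty, tendsto_comap_iff]
  have : (UpperHalfPlane.im ∘ fun w : ℍ => J • w) = UpperHalfPlane.im := by
    ext w
    have h := coe_J_smul w
    have h2 : ((J • w : ℍ) : ℂ).im = (w : ℂ).im := by rw [h]; simp
    exact h2
  rw [this]
  exact tendsto_comap

theorem J_smul_J_smul (w : ℍ) : J • (J • w) = w := by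
  rw [← mul_smul, ← sq, J_sq, one_smul]

theorem conj_T_mem (N : ℕ) (δ : SL(2, ℤ)) : δ * ModularGroup.T ^ (N : ℤ) * δ⁻¹ ∈ Gamma0 N := by
  rw [Gamma0_mem]
  have hdet : δ 0 0 * δ 1 1 - δ 0 1 * δ 1 0 = 1 := by
    have := δ.det_coe
    rw [Matrix.det_fin_two] at this
    exact this
  simp only [Matrix.SpecialLinearGroup.coe_mul, Matrix.mul_apply, Fin.sum_univ_two,
    Matrix.SpecialLinearGroup.coe_inv, Matrix.adjugate_fin_two, ModularGroup.coe_T_zpow,
    Matrix.of_apply, Matrix.cons_val_zero, Matrix.cons_val_one]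
  simp
  ring_nf

theorem conj_T_trace (δ : SL(2, ℤ)) (n : ℤ) :
    ((δ * ModularGroup.T ^ n * δ⁻¹ : SL(2, ℤ)) : Matrix (Fin 2) (Fin 2) ℤ).trace ^ 2 = 4 := by
  have hdet : δ 0 0 * δ 1 1 - δ 0 1 * δ 1 0 = 1 := by
    have := δ.det_coe
    rw [Matrix.det_fin_two] at this
    exact this
  have : ((δ * ModularGroup.T ^ n * δ⁻¹ : SL(2, ℤ)) : Matrix (Fin 2) (Fin 2) ℤ).trace = 2 := by
    rw [Matrix.trace_fin_two]
    simp only [Matrix.SpecialLinearGroup.coe_mul, Matrix.mul_apply, Fin.sum_univ_two,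
      Matrix.SpecialLinearGroup.coe_inv, Matrix.adjugate_fin_two, ModularGroup.coe_T_zpow,
      Matrix.of_apply, Matrix.cons_val_zero, Matrix.cons_val_one]
    simp
    linear_combination 2 * hdet
  rw [this]
  norm_num

theorem conj_T_smul (δ : SL(2, ℤ)) (n : ℤ) (w : ℍ) :
    (δ * ModularGroup.T ^ n * δ⁻¹) • (δ • w) = δ • ((n : ℝ) +ᵥ w) := by
  rw [← mul_smul, inv_mul_cancel_right, mul_smul, modular_T_zpow_smul]

section Forms

variable (N : ℕ) [NeZero N] (f : CuspForm (Gamma0 N) 2)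

theorem prim_periodic_cusp (δ : SL(2, ℤ)) (w : ℍ) :
    prim f (δ • ((N : ℝ) +ᵥ w)) = prim f (δ • w) := by
  have h1 := periodMap_apply_prim N f ⟨_, conj_T_mem N δ⟩ (δ • w)
  have h2 : periodMap N f (Additive.ofMul ⟨_, conj_T_mem N δ⟩) = 0 :=
    periodMap_mem_parabolicHoms N f ⟨_, conj_T_mem N δ⟩ (conj_T_trace δ N)
  rw [h2] at h1
  have h3 := conj_T_smul δ (N : ℤ) w
  rw [Int.cast_natCast] at h3
  rw [← h3]
  exact (sub_eq_zero.mp h1.symm)

theorem prim_periodic_cusp_J (δ : SL(2, ℤ)) (w : ℍ) :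
    prim f (J • (δ • ((N : ℝ) +ᵥ w))) = prim f (J • (δ • w)) := by
  have h1 := charInvolution_periodMap_apply N f (hasEquivariantPrimitive_prim N f)
    ⟨_, conj_T_mem N δ⟩ (δ • w)
  have h2 : charInvolution N ℂ ℂ (periodMap N f) (Additive.ofMul ⟨_, conj_T_mem N δ⟩) = 0 :=
    charInvolution_mem_parabolicHoms N ℂ ℂ (periodMap_mem_parabolicHoms N f)
      ⟨_, conj_T_mem N δ⟩ (conj_T_trace δ N)
  rw [h2] at h1
  have h3 := conj_T_smul δ (N : ℤ) w
  rw [Int.cast_natCast] at h3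
  rw [← h3]
  exact (sub_eq_zero.mp h1.symm)

theorem prim_tendsto_cusp (δ : SL(2, ℤ)) :
    ∃ L : ℂ, Tendsto (fun w : ℍ => prim f (δ • w)) atImInfty (𝓝 L) :=
  (hasEquivariantPrimitive_prim N f).2.2.2 δ

theorem prim_tendsto_cusp_J (δ : SL(2, ℤ)) :
    ∃ L : ℂ, Tendsto (fun w : ℍ => prim f (J • (δ • w))) atImInfty (𝓝 L) := by
  obtain ⟨L, hL⟩ := prim_tendsto_cusp N f (jConjSL δ)
  refine ⟨L, ?_⟩
  have := hL.comp tendsto_J_atImInfty
  refine this.congr fun w => ?_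
  simp only [comp_apply]
  rw [jConj_smul_J]

end Forms

/-- **Injectivity of the Eichler–Shimura pair map.** -/
theorem periodHomPair_injective (N : ℕ) [NeZero N] : Function.Injective (periodHomPair N) := by
  obtain ⟨pml', hpml, hdef⟩ := periodHomPair_def N (existsPeriodMapLinear N)
  rw [injective_iff_map_eq_zero]
  rintro ⟨f₁, f₂⟩ h0
  rw [hdef] at h0
  set P₁ := periodMap N f₁ with hP₁
  set P₂ := periodMap N f₂ with hP₂
  set D : Gamma0 N → ℂ := fun γ => charInvolution N ℂ ℂ P₁ (Additive.ofMul γ)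
    - charInvolution N ℂ ℂ P₂ (Additive.ofMul γ) with hD
  have hrel : ∀ γ : Gamma0 N, P₁ (Additive.ofMul γ) + P₂ (Additive.ofMul γ) = -D γ := by
    intro γ
    have := congrArg (fun ψ : Additive (Gamma0 N) →+ ℂ => ψ (Additive.ofMul γ)) h0
    simp only [LinearMap.coprod_apply, LinearMap.comp_apply, hpml, LinearMap.add_apply,
      LinearMap.sub_apply, LinearMap.id_apply, AddMonoidHom.add_apply, AddMonoidHom.sub_apply,
      AddMonoidHom.zero_apply] at this
    simp only [hD]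
    linear_combination this
  have hF₁ := hasEquivariantPrimitive_prim N f₁
  have hF₂ := hasEquivariantPrimitive_prim N f₂
  set F₁ := prim f₁ with hF₁def
  set F₂ := prim f₂ with hF₂def
  set Φ : ℂ → ℍ → ℂ := fun ε z => F₁ z + F₂ z + ε * conj (F₁ (J • z) - F₂ (J • z)) with hΦ
  set φ : ℂ → ℍ → ℂ := fun ε z => f₁ z + f₂ z + ε * (-conj (f₁ (J • z) - f₂ (J • z))) with hφ
  have hprim : ∀ ε, IsPrim (Φ ε) (φ ε) := by
    intro ε z
    have hsub : IsPrim (fun z => F₁ z - F₂ z) (fun z => f₁ z - f₂ z) := fun z =>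
      (hF₁.1 z).sub (hF₂.1 z)
    have hc := isPrim_conj_J hsub z
    have := ((hF₁.1 z).add (hF₂.1 z)).add (hc.const_mul ε)
    exact this
  have hdiff : ∀ (ε : ℂ) (γ : Gamma0 N) (z : ℍ),
      Φ ε ((γ : SL(2, ℤ)) • z) - Φ ε z = -D γ + ε * conj (D γ) := by
    intro ε γ z
    have a1 := periodMap_apply N f₁ hF₁ γ z
    have a2 := periodMap_apply N f₂ hF₂ γ z
    have b1 := charInvolution_periodMap_apply N f₁ hF₁ γ z
    have b2 := charInvolution_periodMap_apply N f₂ hF₂ γ z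
    have hDγ : D γ = (F₁ (J • ((γ : SL(2, ℤ)) • z)) - F₁ (J • z))
        - (F₂ (J • ((γ : SL(2, ℤ)) • z)) - F₂ (J • z)) := by
      simp only [hD]
      rw [b1, b2]
    have hPγ : -D γ = (F₁ ((γ : SL(2, ℤ)) • z) - F₁ z) + (F₂ ((γ : SL(2, ℤ)) • z) - F₂ z) := by
      rw [← hrel γ, a1, a2]
    simp only [hΦ]
    rw [hPγ, hDγ]
    simp only [map_sub]
    ring
  have hper : ∀ (ε : ℂ) (δ : SL(2, ℤ)) (w : ℍ), Φ ε (δ • ((N : ℝ) +ᵥ w)) = Φ ε (δ • w) := by
    intro ε δ w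
    simp only [hΦ, hF₁def, hF₂def]
    rw [prim_periodic_cusp N f₁ δ w, prim_periodic_cusp N f₂ δ w, prim_periodic_cusp_J N f₁ δ w,
      prim_periodic_cusp_J N f₂ δ w]
  have hlim : ∀ (ε : ℂ) (δ : SL(2, ℤ)), ∃ L : ℂ,
      Tendsto (fun w : ℍ => Φ ε (δ • w)) atImInfty (𝓝 L) := by
    intro ε δ
    obtain ⟨L₁, h₁⟩ := prim_tendsto_cusp N f₁ δ
    obtain ⟨L₂, h₂⟩ := prim_tendsto_cusp N f₂ δ
    obtain ⟨L₃, h₃⟩ := prim_tendsto_cusp_J N f₁ δ
    obtain ⟨L₄, h₄⟩ := prim_tendsto_cusp_J N f₂ δ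
    refine ⟨L₁ + L₂ + ε * conj (L₃ - L₄), ?_⟩
    exact (h₁.add h₂).add (((Complex.continuous_conj.tendsto _).comp (h₃.sub h₄)).const_mul ε)
  have hplus : ∀ z, φ 1 z = 0 := by
    refine deriv_eq_zero_of_re_invariant N (hprim 1) ?_ (hper 1) (hlim 1)
    intro γ hγ z
    have h := hdiff 1 ⟨γ, hγ⟩ z
    have h2 : (Φ 1 (γ • z) - Φ 1 z).re = 0 := by
      rw [h]
      simp
    rw [Complex.sub_re] at h2
    linarith
  have hminus : ∀ z, φ (-1) z = 0 := by
    intro z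
    have h1 : ((-I) • φ (-1)) z = 0 := by
      refine deriv_eq_zero_of_re_invariant N (isPrim_smul (-I) (hprim (-1))) ?_ ?_ ?_ z
      · intro γ hγ z
        have h := hdiff (-1) ⟨γ, hγ⟩ z
        have h2 : ((-I) * (Φ (-1) (γ • z) - Φ (-1) z)).re = 0 := by
          rw [h]
          simp
        simp only [Pi.smul_apply, smul_eq_mul]
        rw [mul_sub, Complex.sub_re] at h2
        linarith
      · intro δ w
        simp only [Pi.smul_apply, hper (-1) δ w]
      · intro δ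
        obtain ⟨L, hL⟩ := hlim (-1) δ
        exact ⟨(-I) * L, hL.const_mul (-I)⟩
    simp only [Pi.smul_apply, smul_eq_mul] at h1
    exact (mul_eq_zero.mp h1).resolve_left (neg_ne_zero.mpr Complex.I_ne_zero)
  have hsum : ∀ z : ℍ, f₁ z + f₂ z = 0 := by
    intro z
    have h1 := hplus z
    have h2 := hminus z
    simp only [hφ] at h1 h2
    linear_combination (1 / 2 : ℂ) * h1 + (1 / 2 : ℂ) * h2
  have hdif : ∀ z : ℍ, f₁ z - f₂ z = 0 := by
    intro z
    have h1 := hplus (J • z)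
    have h2 := hminus (J • z)
    simp only [hφ, J_smul_J_smul] at h1 h2
    have h3 : conj (f₁ z - f₂ z) = 0 := by
      linear_combination (1 / 2 : ℂ) * h2 - (1 / 2 : ℂ) * h1
    exact (map_eq_zero _).mp h3
  have e1 : f₁ = 0 := by
    ext z
    have h1 := hsum z
    have h2 := hdif z
    rw [CuspForm.zero_apply]
    linear_combination (1 / 2 : ℂ) * h1 + (1 / 2 : ℂ) * h2
  have e2 : f₂ = 0 := by
    ext z
    have h1 := hsum z
    have h2 := hdif z
    rw [CuspForm.zero_apply]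
    linear_combination (1 / 2 : ℂ) * h1 - (1 / 2 : ℂ) * h2
  rw [e1, e2]
  rfl

end Fermat.Agent.S21Lib
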