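import Fermat.Agent.Lib.H4.Cusp
import Fermat.Prelude.Def_ModularCurve_PeriodHomPair

/-!
# Periods of weight two cusp forms for `Γ₀(N)`
-/

set_option autoImplicit false

open Complex Filter Function
open UpperHalfPlane hiding I
open scoped Manifold Topology Real MatrixGroups ModularForm
open Matrix.SpecialLinearGroup CongruenceSubgroup

namespace Fermat.Agent.S21Lib

open Fermat.Agent.H4 ModularCurve ModularCurve.Period

/-- The chain rule for a primitive composed with a Möbius transformation (weight two). -/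
theorem hasDerivAt_comp_smul {F f : ℍ → ℂ} (hF : IsPrim F f) (g : GL (Fin 2) ℝ)
    (hg : 0 < g.det.val) (z : ℍ) :
    HasDerivAt (fun u : ℂ => F (g • ofComplex u)) ((f ∣[(2 : ℤ)] g) z) (z : ℂ) := by
  have h1 := hF (g • z)
  have hcoe : ((g • z : ℍ) : ℂ) =
      ((g 0 0 : ℝ) * (z : ℂ) + (g 0 1 : ℝ)) / ((g 1 0 : ℝ) * (z : ℂ) + (g 1 1 : ℝ)) := by
    rw [coe_smul_of_det_pos hg]
    simp [num, denom]
  rw [hcoe] at h1
  have h2 := h1.comp (z : ℂ) (hasDerivAt_moebius g z)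
  have h3 : HasDerivAt (fun u : ℂ => F (g • ofComplex u))
      (f (g • z) * ((g.det.val : ℝ) / (denom g z) ^ 2)) (z : ℂ) := by
    refine h2.congr_of_eventuallyEq ?_
    filter_upwards [coe_smul_ofComplex_eventuallyEq g hg z] with u hu
    simp only [comp_apply]
    rw [← hu, ofComplex_apply]
  refine h3.congr_deriv ?_
  rw [ModularForm.slash_apply, UpperHalfPlane.σ, if_pos hg, abs_of_pos hg]
  simp only [ContinuousAlgEquiv.refl_apply]
  have hd : denom g z ≠ 0 := denom_ne_zero g z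
  have e1 : ((2 : ℤ) - 1) = ((1 : ℕ) : ℤ) := by norm_num
  have e2 : (-(2 : ℤ)) = -((2 : ℕ) : ℤ) := by norm_num
  rw [e1, e2, zpow_natCast, zpow_neg, zpow_natCast, pow_one]
  field_simp

/-- If `f ∣[2] g = φ` then `F ∘ g - Φ` is constant, for primitives `F` of `f` and `Φ` of `φ`. -/
theorem comp_smul_sub_const {F f Φ φ : ℍ → ℂ} (hF : IsPrim F f) (hΦ : IsPrim Φ φ)
    (g : GL (Fin 2) ℝ) (hg : 0 < g.det.val) (hslash : f ∣[(2 : ℤ)] g = φ) (z z' : ℍ) :
    F (g • z) - Φ z = F (g • z') - Φ z' := by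
  have hD : ∀ t : ℍ, HasDerivAt (fun u : ℂ => F (g • ofComplex u) - (Φ ∘ ofComplex) u) 0
      (t : ℂ) := by
    intro t
    have h := (hasDerivAt_comp_smul hF g hg t).sub (hΦ t)
    rw [hslash, sub_self] at h
    exact h
  have := eq_of_hasDerivAt_zero hD z z'
  simpa only [comp_apply, ofComplex_apply] using this

set_option linter.unusedSectionVars false

variable (N : ℕ) [NeZero N]

theorem cusp_nice (f : CuspForm (Gamma0 N) 2) : Nice 1 f :=
  nice_of_cuspForm one_pos (CongruenceSubgroup.one_mem_strictPeriods_Gamma0 N) f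

theorem cusp_hasPrim (f : CuspForm (Gamma0 N) 2) : HasPrim f := (cusp_nice N f).hasPrim one_pos

theorem cusp_translate_hasPrim (f : CuspForm (Gamma0 N) 2) (δ : SL(2, ℤ)) :
    HasPrim (⇑f ∣[(2 : ℤ)] (mapGL ℝ δ : GL (Fin 2) ℝ)) := by
  obtain ⟨M, hM, h⟩ := exists_nice_translate
    (Γ := ((Gamma0 N : Subgroup SL(2, ℤ)) : Subgroup (GL (Fin 2) ℝ))) (k := 2)
  exact (h δ f).hasPrim (by exact_mod_cast hM)

theorem cusp_slash_eq (f : CuspForm (Gamma0 N) 2) {γ : SL(2, ℤ)} (hγ : γ ∈ Gamma0 N) :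
    ⇑f ∣[(2 : ℤ)] (mapGL ℝ γ : GL (Fin 2) ℝ) = ⇑f :=
  SlashInvariantFormClass.slash_action_eq f _ (Subgroup.mem_map_of_mem _ hγ)

/-- The decaying primitive of a cusp form is an equivariant primitive in the sense of the
frozen definition. -/
theorem hasEquivariantPrimitive_prim (f : CuspForm (Gamma0 N) 2) :
    HasEquivariantPrimitive N f (prim f) := by
  have hp := cusp_hasPrim N f
  refine ⟨hp.isPrim, hp.zero, ?_, ?_⟩
  · intro γ
    refine ⟨prim f ((γ : SL(2, ℤ)) • UpperHalfPlane.I) - prim f UpperHalfPlane.I, fun z => ?_⟩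
    exact comp_smul_sub_const hp.isPrim hp.isPrim (mapGL ℝ (γ : SL(2, ℤ))) (det_mapGL_pos _)
      (cusp_slash_eq N f γ.2) z UpperHalfPlane.I
  · intro δ
    have hq := cusp_translate_hasPrim N f δ
    set G := prim (⇑f ∣[(2 : ℤ)] (mapGL ℝ δ : GL (Fin 2) ℝ)) with hG
    refine ⟨prim f (δ • UpperHalfPlane.I) - G UpperHalfPlane.I, ?_⟩
    have heq : ∀ w : ℍ, prim f (δ • w) = G w + (prim f (δ • UpperHalfPlane.I) - G UpperHalfPlane.I) := by
      intro w
      have h' : prim f (δ • w) - G w = prim f (δ • UpperHalfPlane.I) - G UpperHalfPlane.I :=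
        comp_smul_sub_const hp.isPrim hq.isPrim (mapGL ℝ δ) (det_mapGL_pos _) rfl w
          UpperHalfPlane.I
      linear_combination h'
    have h0 : Tendsto G atImInfty (𝓝 0) := hq.zero
    have h1 := h0.add_const (prim f (δ • UpperHalfPlane.I) - G UpperHalfPlane.I)
    rw [zero_add] at h1
    exact h1.congr fun w => (heq w).symm

theorem exists_hasEquivariantPrimitive (f : CuspForm (Gamma0 N) 2) :
    ∃ F, HasEquivariantPrimitive N f F := ⟨_, hasEquivariantPrimitive_prim N f⟩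

/-- The period map is computed by any equivariant primitive at any base point. -/
theorem periodMap_apply (f : CuspForm (Gamma0 N) 2) {F : ℍ → ℂ}
    (hF : HasEquivariantPrimitive N f F) (γ : Gamma0 N) (z : ℍ) :
    periodMap N f (Additive.ofMul γ) = F ((γ : SL(2, ℤ)) • z) - F z := by
  obtain ⟨F₀, h₀, h⟩ := periodMap_def N f hF
  have hFF : F₀ = F := IsPrim.eq_of_zero h₀.1 hF.1 h₀.2.1 hF.2.1
  subst hFF
  rw [h, IsEquivariantPrimitive.periodHom_apply, ← IsEquivariantPrimitive.sub_eq_period _ γ z]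

theorem periodMap_apply_prim (f : CuspForm (Gamma0 N) 2) (γ : Gamma0 N) (z : ℍ) :
    periodMap N f (Additive.ofMul γ) = prim f ((γ : SL(2, ℤ)) • z) - prim f z :=
  periodMap_apply N f (hasEquivariantPrimitive_prim N f) γ z

theorem periodMap_add (f g : CuspForm (Gamma0 N) 2) :
    periodMap N (f + g) = periodMap N f + periodMap N g := by
  refine AddMonoidHom.ext fun γ' => ?_
  set γ : Gamma0 N := Additive.toMul γ' with hγ
  change periodMap N (f + g) (Additive.ofMul γ) = _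
  rw [AddMonoidHom.add_apply]
  change _ = periodMap N f (Additive.ofMul γ) + periodMap N g (Additive.ofMul γ)
  rw [periodMap_apply_prim N _ γ UpperHalfPlane.I,
    periodMap_apply_prim N _ γ UpperHalfPlane.I, periodMap_apply_prim N _ γ UpperHalfPlane.I]
  have : prim ⇑(f + g) = prim f + prim g := by
    rw [CuspForm.coe_add, prim_add (cusp_hasPrim N f) (cusp_hasPrim N g)]
  rw [this]
  simp only [Pi.add_apply]
  ring

theorem periodMap_smul (c : ℂ) (f : CuspForm (Gamma0 N) 2) :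
    periodMap N (c • f) = c • periodMap N f := by
  refine AddMonoidHom.ext fun γ' => ?_
  set γ : Gamma0 N := Additive.toMul γ' with hγ
  change periodMap N (c • f) (Additive.ofMul γ) = _
  rw [AddMonoidHom.smul_apply]
  change _ = c • periodMap N f (Additive.ofMul γ)
  rw [periodMap_apply_prim N _ γ UpperHalfPlane.I,
    periodMap_apply_prim N _ γ UpperHalfPlane.I]
  have : prim ⇑(c • f) = c • prim f := by
    rw [CuspForm.coe_smul, prim_smul c (cusp_hasPrim N f)]
  rw [this]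
  simp only [Pi.smul_apply, smul_eq_mul]
  ring

/-- The bundled linear period map. -/
noncomputable def pml : CuspForm (Gamma0 N) 2 →ₗ[ℂ] (Additive (Gamma0 N) →+ ℂ) where
  toFun := periodMap N
  map_add' := periodMap_add N
  map_smul' := periodMap_smul N

theorem existsPeriodMapLinear : ExistsPeriodMapLinear N := ⟨pml N, fun _ => rfl⟩

section Parabolic

omit [NeZero N]

/-- An upper triangular element of `SL(2, ℤ)` acts on `ℍ` by an integer translation. -/
theorem upper_smul (T : SL(2, ℤ)) (h : T 1 0 = 0) : ∃ m : ℤ, ∀ w : ℍ, T • w = (m : ℝ) +ᵥ w := by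
  have hdet : T 0 0 * T 1 1 - T 0 1 * T 1 0 = 1 := by
    have := T.det_coe
    rw [Matrix.det_fin_two] at this
    exact this
  rw [h, mul_zero, sub_zero] at hdet
  rcases Int.eq_one_or_neg_one_of_mul_eq_one' hdet with ⟨h0, h1⟩ | ⟨h0, h1⟩
  · refine ⟨T 0 1, fun w => ?_⟩
    rw [UpperHalfPlane.ext_iff, coe_vadd, coe_specialLinearGroup_apply]
    simp [h, h0, h1]
    ring
  · refine ⟨-T 0 1, fun w => ?_⟩
    rw [UpperHalfPlane.ext_iff, coe_vadd, coe_specialLinearGroup_apply]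
    simp [h, h0, h1]
    ring

theorem tendsto_vadd_atImInfty (m : ℝ) : Tendsto (fun w : ℍ => m +ᵥ w) atImInfty atImInfty := by
  rw [atImInfty, tendsto_comap_iff]
  have : (UpperHalfPlane.im ∘ fun w : ℍ => m +ᵥ w) = UpperHalfPlane.im := by
    ext w
    simp [vadd_im]
  rw [this]
  exact tendsto_comap

theorem exists_conj_upper (γ : SL(2, ℤ)) (h : (γ : Matrix (Fin 2) (Fin 2) ℤ).trace ^ 2 = 4) :
    ∃ δ : SL(2, ℤ), (δ⁻¹ * γ * δ) 1 0 = 0 := by
  have hdet : γ 0 0 * γ 1 1 - γ 0 1 * γ 1 0 = 1 := by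
    have := γ.det_coe
    rw [Matrix.det_fin_two] at this
    exact this
  rw [Matrix.trace_fin_two] at h
  obtain ⟨p, q, hpq, hq⟩ : ∃ p q : ℤ, IsCoprime p q ∧
      γ 1 0 * p ^ 2 + (γ 1 1 - γ 0 0) * p * q - γ 0 1 * q ^ 2 = 0 := by
    by_cases hc : γ 1 0 = 0
    · exact ⟨1, 0, isCoprime_one_left, by simp [hc]⟩
    · obtain ⟨ε, hε2, hε⟩ : ∃ ε : ℤ, ε ^ 2 = 1 ∧ γ 0 0 + γ 1 1 = 2 * ε := by
        have h' : (γ 0 0 + γ 1 1 - 2) * (γ 0 0 + γ 1 1 + 2) = 0 := by linear_combination h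
        rcases mul_eq_zero.mp h' with h' | h'
        · exact ⟨1, by norm_num, by linarith⟩
        · exact ⟨-1, by norm_num, by linarith⟩
      have hpos : 0 < Int.gcd (γ 1 1 - ε) (γ 1 0) := Int.gcd_pos_of_ne_zero_right _ hc
      obtain ⟨p, q', hcop, hp, hq'⟩ := Int.exists_gcd_one hpos
      set g : ℤ := (Int.gcd (γ 1 1 - ε) (γ 1 0) : ℤ) with hg
      have hg0 : g ≠ 0 := by
        rw [hg]
        exact_mod_cast hpos.ne'
      refine ⟨p, -q', ?_, ?_⟩
      · rw [Int.isCoprime_iff_gcd_eq_one, Int.gcd_neg]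
        exact hcop
      · have : g ^ 2 * (γ 1 0 * p ^ 2 + (γ 1 1 - γ 0 0) * p * (-q') - γ 0 1 * (-q') ^ 2) = 0 := by
          have e1 : g ^ 2 * (γ 1 0 * p ^ 2 + (γ 1 1 - γ 0 0) * p * (-q') - γ 0 1 * (-q') ^ 2)
              = γ 1 0 * (p * g) ^ 2 - (γ 1 1 - γ 0 0) * (p * g) * (q' * g) - γ 0 1 * (q' * g) ^ 2 := by
            ring
          rw [e1, ← hp, ← hq']
          linear_combination (γ 1 0) * hdet - (γ 1 0) * hε2 - (γ 1 0) * ε * hε
        exact (mul_eq_zero.mp this).resolve_left (pow_ne_zero 2 hg0)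
  obtain ⟨δ₀, -, hδ₀⟩ := ModularGroup.bottom_row_surj (R := ℤ)
    (show ![-q, p] ∈ {cd : Fin 2 → ℤ | IsCoprime (cd 0) (cd 1)} by
      simpa using hpq.symm.neg_left)
  have h10 : δ₀ 1 0 = -q := by
    have := congrFun hδ₀ 0
    simpa using this
  have h11 : δ₀ 1 1 = p := by
    have := congrFun hδ₀ 1
    simpa using this
  refine ⟨δ₀⁻¹, ?_⟩
  rw [inv_inv]
  simp only [Matrix.SpecialLinearGroup.coe_mul, Matrix.mul_apply, Fin.sum_univ_two,
    Matrix.SpecialLinearGroup.coe_inv, Matrix.adjugate_fin_two, h10, h11, Matrix.of_apply,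
    Matrix.cons_val_zero, Matrix.cons_val_one]
  simp
  linear_combination hq

theorem period_eq_zero_of_trace {Γ : Subgroup SL(2, ℤ)} {F : ℍ → ℂ}
    (hF : IsEquivariantPrimitive Γ F)
    (hlim : ∀ δ : SL(2, ℤ), ∃ L : ℂ, Tendsto (fun w : ℍ => F (δ • w)) atImInfty (𝓝 L))
    (γ : Γ) (h : ((γ : SL(2, ℤ)) : Matrix (Fin 2) (Fin 2) ℤ).trace ^ 2 = 4) (z : ℍ) :
    F ((γ : SL(2, ℤ)) • z) - F z = 0 := by
  obtain ⟨δ, hδ⟩ := exists_conj_upper γ h
  obtain ⟨m, hm⟩ := upper_smul _ hδ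
  obtain ⟨L, hL⟩ := hlim δ
  obtain ⟨c, hc⟩ := hF γ
  rw [hc z]
  have key : ∀ w : ℍ, F (δ • ((m : ℝ) +ᵥ w)) - F (δ • w) = c := by
    intro w
    rw [← hm w, ← hc (δ • w)]
    congr 2
    rw [← mul_smul, ← mul_smul]
    congr 1
    group
  have h1 : Tendsto (fun w : ℍ => F (δ • ((m : ℝ) +ᵥ w)) - F (δ • w)) atImInfty (𝓝 (L - L)) :=
    (hL.comp (tendsto_vadd_atImInfty m)).sub hL
  simp only [key, sub_self] at h1
  exact tendsto_nhds_unique tendsto_const_nhds h1


theorem periodMap_mem_parabolicHoms (N : ℕ) [NeZero N] (f : CuspForm (Gamma0 N) 2) :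
    periodMap N f ∈ parabolicHoms ℂ (Gamma0 N) ℂ := by
  rw [mem_parabolicHoms_iff]
  intro γ hγ
  have hF := hasEquivariantPrimitive_prim N f
  rw [periodMap_apply_prim N f γ UpperHalfPlane.I]
  exact period_eq_zero_of_trace hF.2.2.1 hF.2.2.2 γ hγ _

theorem jConj_smul_J (γ : SL(2, ℤ)) (z : ℍ) : (jConjSL γ) • (J • z) = J • (γ • z) := by
  rw [ModularGroup.sl_moeb, ModularGroup.sl_moeb, ← mul_smul, ← mul_smul]
  congr 1
  ext i j
  fin_cases i <;> fin_cases j <;>
    simp [J, jConjMat, Matrix.mul_apply, Fin.sum_univ_two]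


theorem charInvolution_periodMap_apply (N : ℕ) [NeZero N] (f : CuspForm (Gamma0 N) 2) {F : ℍ → ℂ}
    (hF : HasEquivariantPrimitive N f F) (γ : Gamma0 N) (z : ℍ) :
    charInvolution N ℂ ℂ (periodMap N f) (Additive.ofMul γ)
      = F (J • ((γ : SL(2, ℤ)) • z)) - F (J • z) := by
  rw [charInvolution_apply, toMul_ofMul, periodMap_apply N f hF _ (J • z), jConjGamma0_coe,
    jConj_smul_J]


end Parabolic

end Fermat.Agent.S21Lib
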