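/-
S21, piece P4 (helper2): periods of weight two modular forms (not necessarily cuspidal) along
the parabolic elements `δ T^N δ⁻¹`, and the resulting bound for the space of parabolic
homomorphisms.
-/
import Fermat.Agent.Lib.S21.Period
import Fermat.Agent.Lib.S20.Basic

set_option autoImplicit false

open Complex Filter Function
open UpperHalfPlane hiding I
open scoped Manifold Topology Real MatrixGroups ModularForm
open Matrix.SpecialLinearGroup CongruenceSubgroup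

namespace Fermat.Agent.S21Lib

open Fermat.Agent.H4 ModularCurve ModularCurve.Period

/-- periodic, holomorphic and bounded at `i∞` -/
structure EisPer (h : ℝ) (g : ℍ → ℂ) : Prop where
  per : Periodic (g ∘ ofComplex) h
  hol : MDiff g
  bdd : IsBoundedAtImInfty g

theorem EisPer.tendsto {h : ℝ} (hh : 0 < h) {g : ℍ → ℂ} (hg : EisPer h g) :
    Tendsto g atImInfty (𝓝 (valueAtInfty g)) := by
  have han := analyticAt_cuspFunction_zero hh hg.per hg.hol hg.bdd
  rw [← cuspFunction_apply_zero hh han hg.per]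
  have : (cuspFunction h g ∘ fun τ : ℍ ↦ Periodic.qParam h τ : ℍ → ℂ) = g := by
    funext τ
    simpa using eq_cuspFunction τ hh.ne' hg.per
  simpa [this] using han.continuousAt.tendsto.comp (qParam_tendsto_atImInfty hh)

theorem EisPer.nice_sub {h : ℝ} (hh : 0 < h) {g : ℍ → ℂ} (hg : EisPer h g) :
    Nice h (fun z => g z - valueAtInfty g) where
  per := by
    intro w
    have := hg.per w
    simp only [comp_apply] at this ⊢
    rw [this]
  hol := hg.hol.sub mdifferentiable_const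
  zero := by
    have := (hg.tendsto hh).sub_const (valueAtInfty g)
    rwa [sub_self] at this

theorem eis_vadd_apply {h : ℝ} {G : ℍ → ℂ} (hG : Periodic (G ∘ ofComplex) h) (w : ℍ) :
    G (h +ᵥ w) = G w := by
  have := hG (w : ℂ)
  simp only [comp_apply, ofComplex_apply] at this
  rw [← this]
  congr 1
  apply UpperHalfPlane.ext
  rw [coe_vadd]
  have him : 0 < ((w : ℂ) + (h : ℂ)).im := by simpa using w.im_pos
  rw [ofComplex_apply_of_im_pos him]
  simp [add_comm]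

/-- A primitive of a periodic holomorphic function bounded at `i∞`; its quasi-period is
`h * (value at i∞)`. -/
theorem EisPer.exists_prim {h : ℝ} (hh : 0 < h) {g : ℍ → ℂ} (hg : EisPer h g) :
    ∃ G : ℍ → ℂ, IsPrim G g ∧ ∀ w : ℍ, G (h +ᵥ w) - G w = h * valueAtInfty g := by
  obtain ⟨G₀, hG₀, hG₀p⟩ := (hg.nice_sub hh).exists_prim hh
  refine ⟨fun z => valueAtInfty g * (z : ℂ) + G₀ z, ?_, ?_⟩
  · intro z
    have h1 : HasDerivAt (fun u : ℂ => valueAtInfty g * u) (valueAtInfty g) (z : ℂ) := by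
      simpa using (hasDerivAt_id (z : ℂ)).const_mul (valueAtInfty g)
    have h1' : HasDerivAt ((fun z : ℍ => valueAtInfty g * (z : ℂ)) ∘ ofComplex)
        (valueAtInfty g) (z : ℂ) :=
      h1.congr_of_eventuallyEq (comp_ofComplex_eventuallyEq (fun u => valueAtInfty g * u) z)
    have h2 := h1'.add (hG₀p z)
    have e : valueAtInfty g + (g z - valueAtInfty g) = g z := by ring
    rw [e] at h2
    exact h2
  · intro w
    have hper : G₀ (h +ᵥ w) = G₀ w := eis_vadd_apply hG₀.per w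
    simp only [coe_vadd, hper]
    ring

/-- Every primitive has the same quasi-period. -/
theorem EisPer.prim_vadd_sub {h : ℝ} (hh : 0 < h) {g : ℍ → ℂ} (hg : EisPer h g) {G : ℍ → ℂ}
    (hG : IsPrim G g) (w : ℍ) : G (h +ᵥ w) - G w = h * valueAtInfty g := by
  obtain ⟨G₁, hG₁, hq⟩ := hg.exists_prim hh
  have hD : ∀ z : ℍ, HasDerivAt (fun u => (G ∘ ofComplex) u - (G₁ ∘ ofComplex) u) 0 (z : ℂ) := by
    intro z
    have := (hG z).sub (hG₁ z)
    rw [sub_self] at this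
    exact this
  have hc := eq_of_hasDerivAt_zero hD (h +ᵥ w) w
  simp only [comp_apply, ofComplex_apply] at hc
  rw [← hq w]
  linear_combination hc

theorem eis_periodic_of_vadd {h : ℝ} {g : ℍ → ℂ} (hg : ∀ w : ℍ, g (h +ᵥ w) = g w) :
    Periodic (g ∘ ofComplex) h := by
  intro w
  by_cases hw : 0 < im w
  · have hw' : 0 < im (w + h) := by simpa using hw
    simp only [comp_apply, ofComplex_apply_of_im_pos hw', ofComplex_apply_of_im_pos hw]
    rw [← hg ⟨w, hw⟩]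
    congr 1
    apply UpperHalfPlane.ext
    rw [coe_vadd]
    simp [add_comm]
  · have hw0 : im w ≤ 0 := not_lt.mp hw
    have hw' : im (w + h) ≤ 0 := by simpa using hw0
    simp [ofComplex_apply_of_im_nonpos hw', ofComplex_apply_of_im_nonpos hw0]

section level

variable (N : ℕ) [NeZero N]

omit [NeZero N] in
/-- the parabolic element `δ T^N δ⁻¹` lies in `Γ₀(N)` -/
theorem eis_conj_mem (δ : SL(2, ℤ)) : δ * ModularGroup.T ^ (N : ℤ) * δ⁻¹ ∈ Gamma0 N := by
  have h1 : ModularGroup.T ^ (N : ℤ) ∈ CongruenceSubgroup.Gamma N := by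
    simpa using ModularGroup_T_pow_mem_Gamma (N : ℤ) (N : ℤ) dvd_rfl
  have h2 : δ * ModularGroup.T ^ (N : ℤ) * δ⁻¹ ∈ CongruenceSubgroup.Gamma N := (Gamma_normal N).conj_mem _ h1 δ
  rw [Gamma_mem] at h2
  rw [Gamma0_mem]
  exact h2.2.2.1

/-- the parabolic element `δ T^N δ⁻¹` of `Γ₀(N)` -/
def eisPar (δ : SL(2, ℤ)) : Gamma0 N := ⟨δ * ModularGroup.T ^ (N : ℤ) * δ⁻¹, eis_conj_mem N δ⟩

variable {N}

theorem eis_slash_T (g : ℍ → ℂ) (n : ℤ) (w : ℍ) :
    (g ∣[(2 : ℤ)] (mapGL ℝ (ModularGroup.T ^ n) : GL (Fin 2) ℝ)) w = g ((n : ℝ) +ᵥ w) := by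
  have h := ModularForm.SL_slash_apply (k := 2) g (ModularGroup.T ^ n) w
  rw [ModularForm.SL_slash] at h
  rw [modular_T_zpow_smul] at h
  have hd : denom (toGL ((Matrix.SpecialLinearGroup.map (Int.castRingHom ℝ)) (ModularGroup.T ^ n)))
      (w : ℂ) = 1 := by
    have e10 : (ModularGroup.T ^ n : SL(2, ℤ)) 1 0 = 0 := by simp [ModularGroup.coe_T_zpow]
    have e11 : (ModularGroup.T ^ n : SL(2, ℤ)) 1 1 = 1 := by simp [ModularGroup.coe_T_zpow]
    have e : denom (toGL ((Matrix.SpecialLinearGroup.map (Int.castRingHom ℝ))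
        (ModularGroup.T ^ n))) (w : ℂ) =
        ((((ModularGroup.T ^ n : SL(2, ℤ)) 1 0 : ℤ) : ℝ) : ℂ) * w +
          ((((ModularGroup.T ^ n : SL(2, ℤ)) 1 1 : ℤ) : ℝ) : ℂ) := rfl
    rw [e, e10, e11]
    simp
  rw [hd, one_zpow, mul_one] at h
  exact h

omit [NeZero N] in
theorem eis_slash_eq (f : ModularForm (Gamma0 N) 2) {γ : SL(2, ℤ)} (hγ : γ ∈ Gamma0 N) :
    ⇑f ∣[(2 : ℤ)] (mapGL ℝ γ : GL (Fin 2) ℝ) = ⇑f :=
  SlashInvariantFormClass.slash_action_eq f _ (Subgroup.mem_map_of_mem _ hγ)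

omit [NeZero N] in
theorem eis_slash_vadd (f : ModularForm (Gamma0 N) 2) (δ : SL(2, ℤ)) (w : ℍ) :
    (⇑f ∣[(2 : ℤ)] (mapGL ℝ δ : GL (Fin 2) ℝ)) ((N : ℝ) +ᵥ w) =
      (⇑f ∣[(2 : ℤ)] (mapGL ℝ δ : GL (Fin 2) ℝ)) w := by
  have h1 : ⇑f ∣[(2 : ℤ)] (mapGL ℝ δ : GL (Fin 2) ℝ) =
      (⇑f ∣[(2 : ℤ)] (mapGL ℝ δ : GL (Fin 2) ℝ)) ∣[(2 : ℤ)]
        (mapGL ℝ (ModularGroup.T ^ (N : ℤ)) : GL (Fin 2) ℝ) := by
    rw [← SlashAction.slash_mul, ← map_mul]
    have e : δ * ModularGroup.T ^ (N : ℤ) = (δ * ModularGroup.T ^ (N : ℤ) * δ⁻¹) * δ := by group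
    rw [e, map_mul, SlashAction.slash_mul, eis_slash_eq f (eis_conj_mem N δ)]
  have h2 := eis_slash_T (⇑f ∣[(2 : ℤ)] (mapGL ℝ δ : GL (Fin 2) ℝ)) (N : ℤ) w
  rw [← h1] at h2
  rw [h2]
  simp

theorem eisPer_slash (f : ModularForm (Gamma0 N) 2) (δ : SL(2, ℤ)) :
    EisPer (N : ℝ) (⇑f ∣[(2 : ℤ)] (mapGL ℝ δ : GL (Fin 2) ℝ)) where
  per := eis_periodic_of_vadd (eis_slash_vadd f δ)
  hol := (ModularFormClass.holo f).slash 2 _
  bdd := by
    have := ModularFormClass.bdd_at_infty_slash f (k := 2) δ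
    rw [ModularForm.SL_slash] at this
    exact this

theorem eis_pos : (0 : ℝ) < (N : ℝ) := Nat.cast_pos.mpr (NeZero.pos N)

omit [NeZero N] in
/-- a primitive of a weight two modular form is an equivariant primitive -/
theorem eis_isEquivariantPrimitive (f : ModularForm (Gamma0 N) 2) {F : ℍ → ℂ}
    (hF : IsPrim F f) : IsEquivariantPrimitive (Gamma0 N) F := by
  intro γ
  refine ⟨F ((γ : SL(2, ℤ)) • UpperHalfPlane.I) - F UpperHalfPlane.I, fun z => ?_⟩
  exact comp_smul_sub_const hF hF (mapGL ℝ (γ : SL(2, ℤ))) (det_mapGL_pos _)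
    (eis_slash_eq f γ.2) z UpperHalfPlane.I

theorem eis_exists_prim (f : ModularForm (Gamma0 N) 2) : ∃ F : ℍ → ℂ, IsPrim F f := by
  have h := eisPer_slash f 1
  rw [map_one, SlashAction.slash_one] at h
  obtain ⟨F, hF, -⟩ := h.exists_prim eis_pos
  exact ⟨F, hF⟩

/-- The period homomorphism of a weight two modular form (cuspidal or not), and its values
on the parabolic elements `δ T^N δ⁻¹`: `N` times the value of `f ∣ δ` at `i∞`. -/
theorem eis_exists_hom (f : ModularForm (Gamma0 N) 2) :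
    ∃ φ : Additive (Gamma0 N) →+ ℂ, ∀ δ : SL(2, ℤ),
      φ (Additive.ofMul (eisPar N δ)) =
        N * valueAtInfty (⇑f ∣[(2 : ℤ)] (mapGL ℝ δ : GL (Fin 2) ℝ)) := by
  obtain ⟨F, hF⟩ := eis_exists_prim f
  have hE := eis_isEquivariantPrimitive f hF
  refine ⟨hE.periodHom, fun δ => ?_⟩
  rw [IsEquivariantPrimitive.periodHom_apply,
    ← hE.sub_eq_period (eisPar N δ) (δ • UpperHalfPlane.I)]
  have hG : IsPrim (fun w : ℍ => F (δ • w)) (⇑f ∣[(2 : ℤ)] (mapGL ℝ δ : GL (Fin 2) ℝ)) :=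
    fun z => hasDerivAt_comp_smul hF (mapGL ℝ δ) (det_mapGL_pos δ) z
  have key := (eisPer_slash f δ).prim_vadd_sub eis_pos hG UpperHalfPlane.I
  have e : ((eisPar N δ : Gamma0 N) : SL(2, ℤ)) • δ • UpperHalfPlane.I =
      δ • ((N : ℝ) +ᵥ UpperHalfPlane.I) := by
    show (δ * ModularGroup.T ^ (N : ℤ) * δ⁻¹) • δ • UpperHalfPlane.I = _
    rw [← mul_smul, inv_mul_cancel_right, mul_smul, modular_T_zpow_smul]
    simp
  rw [e, key, Complex.ofReal_natCast]

/-! ### The constant-term map -/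

theorem eis_valueAtInfty_add {h : ℝ} (hh : 0 < h) {g₁ g₂ : ℍ → ℂ} (h₁ : EisPer h g₁)
    (h₂ : EisPer h g₂) : valueAtInfty (g₁ + g₂) = valueAtInfty g₁ + valueAtInfty g₂ :=
  ((h₁.tendsto hh).add (h₂.tendsto hh)).limUnder_eq

theorem eis_valueAtInfty_smul {h : ℝ} (hh : 0 < h) (c : ℂ) {g : ℍ → ℂ} (hg : EisPer h g) :
    valueAtInfty (c • g) = c * valueAtInfty g :=
  ((hg.tendsto hh).const_smul c).limUnder_eq

variable (N)

/-- `f ↦ (δ ↦ N * (value of f ∣ δ at i∞))` -/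
noncomputable def eisL : ModularForm (Gamma0 N) 2 →ₗ[ℂ] (SL(2, ℤ) → ℂ) where
  toFun f δ := N * valueAtInfty (⇑f ∣[(2 : ℤ)] (mapGL ℝ δ : GL (Fin 2) ℝ))
  map_add' f g := by
    funext δ
    simp only [Pi.add_apply]
    rw [← mul_add]
    congr 1
    have e : ⇑(f + g) ∣[(2 : ℤ)] (mapGL ℝ δ : GL (Fin 2) ℝ) =
        ⇑f ∣[(2 : ℤ)] (mapGL ℝ δ : GL (Fin 2) ℝ) + ⇑g ∣[(2 : ℤ)] (mapGL ℝ δ : GL (Fin 2) ℝ) := by
      rw [FunLike.coe_add, SlashAction.add_slash]
    rw [e]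
    exact eis_valueAtInfty_add eis_pos (eisPer_slash f δ) (eisPer_slash g δ)
  map_smul' c f := by
    funext δ
    simp only [Pi.smul_apply, smul_eq_mul, RingHom.id_apply]
    have e : ⇑(c • f) ∣[(2 : ℤ)] (mapGL ℝ δ : GL (Fin 2) ℝ) =
        c • (⇑f ∣[(2 : ℤ)] (mapGL ℝ δ : GL (Fin 2) ℝ)) := by
      have := ModularForm.SL_smul_slash 2 δ (⇑f) c
      rw [ModularForm.SL_slash, ModularForm.SL_slash] at this
      rw [FunLike.coe_smul]
      exact this
    rw [e, eis_valueAtInfty_smul eis_pos c (eisPer_slash f δ)]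
    ring

theorem eisL_apply (f : ModularForm (Gamma0 N) 2) (δ : SL(2, ℤ)) :
    eisL N f δ = N * valueAtInfty (⇑f ∣[(2 : ℤ)] (mapGL ℝ δ : GL (Fin 2) ℝ)) := rfl

variable {N}

theorem eis_isZero_of_mem_ker {f : ModularForm (Gamma0 N) 2} (hf : f ∈ LinearMap.ker (eisL N))
    (δ : SL(2, ℤ)) : IsZeroAtImInfty (⇑f ∣[(2 : ℤ)] (mapGL ℝ δ : GL (Fin 2) ℝ)) := by
  have h0 : eisL N f δ = 0 := by
    rw [LinearMap.mem_ker.mp hf]
    rfl
  rw [eisL_apply] at h0
  have hN : (N : ℂ) ≠ 0 := Nat.cast_ne_zero.mpr (NeZero.ne N)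
  have h1 : valueAtInfty (⇑f ∣[(2 : ℤ)] (mapGL ℝ δ : GL (Fin 2) ℝ)) = 0 :=
    (mul_eq_zero.mp h0).resolve_left hN
  have := (eisPer_slash f δ).tendsto eis_pos
  rw [h1] at this
  exact this

/-- the cusp form attached to an element of the kernel of the constant-term map -/
def eisCusp (f : ModularForm (Gamma0 N) 2)
    (h : ∀ δ : SL(2, ℤ), IsZeroAtImInfty (⇑f ∣[(2 : ℤ)] (mapGL ℝ δ : GL (Fin 2) ℝ))) :
    CuspForm (Gamma0 N) 2 where
  toSlashInvariantForm := f.toSlashInvariantForm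
  holo' := f.holo'
  zero_at_cusps' := fun {c} hc => by
    rw [Subgroup.IsArithmetic.isCusp_iff_isCusp_SL2Z] at hc
    rw [OnePoint.isZeroAt_iff_forall_SL2Z hc]
    intro γ _
    rw [ModularForm.SL_slash]
    exact h γ

theorem coe_eisCusp (f : ModularForm (Gamma0 N) 2)
    (h : ∀ δ : SL(2, ℤ), IsZeroAtImInfty (⇑f ∣[(2 : ℤ)] (mapGL ℝ δ : GL (Fin 2) ℝ))) :
    (⇑(eisCusp f h) : ℍ → ℂ) = ⇑f := rfl

variable (N)

/-- the kernel of the constant-term map embeds into the cusp forms -/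
noncomputable def eisKerToCusp : LinearMap.ker (eisL N) →ₗ[ℂ] CuspForm (Gamma0 N) 2 where
  toFun f := eisCusp f.1 (eis_isZero_of_mem_ker f.2)
  map_add' f g := by
    apply DFunLike.coe_injective
    rfl
  map_smul' c f := by
    apply DFunLike.coe_injective
    rfl

theorem eisKerToCusp_injective : Function.Injective (eisKerToCusp N) := by
  intro f g h
  apply Subtype.ext
  apply DFunLike.coe_injective
  have := congrArg (fun s : CuspForm (Gamma0 N) 2 => (⇑s : ℍ → ℂ)) h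
  exact this

/-! ### Restriction to the parabolic elements and the dimension count -/

/-- restriction of a homomorphism to the parabolic elements `δ T^N δ⁻¹` -/
def eisRes : (Additive (Gamma0 N) →+ ℂ) →ₗ[ℂ] (SL(2, ℤ) → ℂ) where
  toFun φ δ := φ (Additive.ofMul (eisPar N δ))
  map_add' _ _ := rfl
  map_smul' _ _ := rfl

theorem eis_range_le : LinearMap.range (eisL N) ≤ LinearMap.range (eisRes N) := by
  rintro _ ⟨f, rfl⟩
  obtain ⟨φ, hφ⟩ := eis_exists_hom f
  exact ⟨φ, funext fun δ => hφ δ⟩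

omit [NeZero N] in
theorem eis_trace (δ : SL(2, ℤ)) :
    (((eisPar N δ : Gamma0 N) : SL(2, ℤ)) : Matrix (Fin 2) (Fin 2) ℤ).trace = 2 := by
  show ((δ * ModularGroup.T ^ (N : ℤ) * δ⁻¹ : SL(2, ℤ)) : Matrix (Fin 2) (Fin 2) ℤ).trace = 2
  rw [coe_mul, Matrix.trace_mul_comm, ← coe_mul, inv_mul_cancel_left, ModularGroup.coe_T_zpow,
    Matrix.trace_fin_two_of]
  norm_num

omit [NeZero N] in
theorem eis_parabolic_le_ker : parabolicHoms ℂ (Gamma0 N) ℂ ≤ LinearMap.ker (eisRes N) := by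
  intro φ hφ
  rw [mem_parabolicHoms_iff] at hφ
  rw [LinearMap.mem_ker]
  funext δ
  refine hφ (eisPar N δ) ?_
  rw [eis_trace]
  norm_num

/-- **P4, dimension count.**  `dim parabolicHoms + dim M₂ ≤ dim Hom(Γ₀(N), ℂ) + dim S₂`. -/
theorem eis_finrank_add_le [Module.Finite ℂ (Additive (Gamma0 N) →+ ℂ)] :
    Module.finrank ℂ (parabolicHoms ℂ (Gamma0 N) ℂ) +
        Module.finrank ℂ (ModularForm (Gamma0 N) 2) ≤
      Module.finrank ℂ (Additive (Gamma0 N) →+ ℂ) +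
        Module.finrank ℂ (CuspForm (Gamma0 N) 2) := by
  have h1 : Module.finrank ℂ (parabolicHoms ℂ (Gamma0 N) ℂ) ≤
      Module.finrank ℂ (LinearMap.ker (eisRes N)) := Submodule.finrank_mono (eis_parabolic_le_ker N)
  have h2 := LinearMap.finrank_range_add_finrank_ker (eisRes N)
  have h3 : Module.finrank ℂ (LinearMap.range (eisL N)) ≤
      Module.finrank ℂ (LinearMap.range (eisRes N)) := Submodule.finrank_mono (eis_range_le N)
  have h4 := LinearMap.finrank_range_add_finrank_ker (eisL N)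
  have h5 : Module.finrank ℂ (LinearMap.ker (eisL N)) ≤
      Module.finrank ℂ (CuspForm (Gamma0 N) 2) :=
    LinearMap.finrank_le_finrank_of_injective (eisKerToCusp_injective N)
  omega

/-- **P4.**  Given the bound of P3 for `Hom(Γ₀(N), ℂ)` and the relation
`dim M₂ + 1 = dim S₂ + #cusps` from S20, the space of parabolic homomorphisms has dimension at
most `2 * genusFormula N`. -/
theorem finrank_parabolicHoms_le [Module.Finite ℂ (Additive (Gamma0 N) →+ ℂ)]
    (hP3 : (Module.finrank ℂ (Additive (Gamma0 N) →+ ℂ) : ℚ) ≤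
      (ModularCurve.dedekindPsi N : ℚ) / 6 - (ModularCurve.nuTwo N : ℚ) / 2
        - 2 * (ModularCurve.nuThree N : ℚ) / 3 + 1)
    (hS20 : Module.finrank ℂ (ModularForm (Gamma0 N) 2) + 1 =
      Module.finrank ℂ (CuspForm (Gamma0 N) 2) + ModularCurve.cuspCount N) :
    (Module.finrank ℂ (parabolicHoms ℂ (Gamma0 N) ℂ) : ℚ) ≤ 2 * ModularCurve.genusFormula N := by
  have h := eis_finrank_add_le N
  have h' : (Module.finrank ℂ (parabolicHoms ℂ (Gamma0 N) ℂ) : ℚ) +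
      (Module.finrank ℂ (ModularForm (Gamma0 N) 2) : ℚ) ≤
      (Module.finrank ℂ (Additive (Gamma0 N) →+ ℂ) : ℚ) +
        (Module.finrank ℂ (CuspForm (Gamma0 N) 2) : ℚ) := by exact_mod_cast h
  have hS : (Module.finrank ℂ (ModularForm (Gamma0 N) 2) : ℚ) + 1 =
      (Module.finrank ℂ (CuspForm (Gamma0 N) 2) : ℚ) + (ModularCurve.cuspCount N : ℚ) := by
    exact_mod_cast hS20
  unfold ModularCurve.genusFormula
  linarith

end level

end Fermat.Agent.S21Lib
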