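/-
S21, chunk P3 (helper4): an upper bound for the dimension of `Hom(Γ, ℂ)` where `Γ` is the
stabilizer of a point in a finite transitive `G`-set `X`, `G` generated by `S` and `U` with
`S ^ 2 = U ^ 3 = ε` central, of order two and acting trivially on `X`:

  `6 * dim Hom(Γ, ℂ) + 3 * #Fix(S) + 4 * #Fix(U) ≤ #X + 6`.

Proof: `φ ↦ (c_φ(S), c_φ(U))` (the induced cocycle on `V = X → ℂ`, Shapiro) is injective modulo
coboundaries; cocycles lie in `ker (S + 1) × ker (U² + U + 1)`.
-/
import Mathlib

set_option autoImplicit false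

namespace Fermat.Agent.S21Lib

open Module

/-! ## Precomposition operators on `X → ℂ` -/

section pre

variable {X : Type} [Fintype X] [DecidableEq X]

/-- precomposition with a self-map of `X` -/
noncomputable def hbPre (σ : X → X) : (X → ℂ) →ₗ[ℂ] (X → ℂ) where
  toFun v := fun x => v (σ x)
  map_add' _ _ := rfl
  map_smul' _ _ := rfl

@[simp] theorem hbPre_apply (σ : X → X) (v : X → ℂ) (x : X) : hbPre σ v x = v (σ x) := rfl

theorem hbPre_trace (σ : X → X) :
    LinearMap.trace ℂ (X → ℂ) (hbPre σ) = (Nat.card {x : X // σ x = x} : ℂ) := by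
  rw [LinearMap.trace_eq_matrix_trace ℂ (Pi.basisFun ℂ X), Matrix.trace]
  have h : ∀ x : X,
      Matrix.diag (LinearMap.toMatrix (Pi.basisFun ℂ X) (Pi.basisFun ℂ X) (hbPre σ)) x
        = if σ x = x then 1 else 0 := by
    intro x
    rw [Matrix.diag_apply, LinearMap.toMatrix_apply, Pi.basisFun_repr, Pi.basisFun_apply,
      hbPre_apply, Pi.single_apply]
  simp_rw [h]
  rw [Finset.sum_boole, Nat.card_eq_fintype_card, Fintype.card_subtype]

end pre

/-! ## Dimension of eigenspaces via traces -/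

section proj

variable {V : Type} [AddCommGroup V] [Module ℂ V] [FiniteDimensional ℂ V]

theorem hb_trace_of_idem (P : V →ₗ[ℂ] V) (hP : ∀ v, P (P v) = P v) :
    LinearMap.trace ℂ V P = (finrank ℂ (LinearMap.range P) : ℂ) := by
  have hproj : LinearMap.IsProj (LinearMap.range P) P :=
    ⟨fun x => LinearMap.mem_range_self P x, by rintro x ⟨y, rfl⟩; exact hP y⟩
  exact hproj.trace

/-- involutions: `2 dim ker (A + 1) + tr A = dim V` -/
theorem hb_finrank_ker_invol (A : V →ₗ[ℂ] V) (hA : ∀ v, A (A v) = v) :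
    (2 * finrank ℂ (LinearMap.ker (A + LinearMap.id)) : ℂ) + LinearMap.trace ℂ V A
      = finrank ℂ V := by
  set P : V →ₗ[ℂ] V := (2 : ℂ)⁻¹ • (LinearMap.id + A) with hPdef
  have hPv : ∀ v, P v = (2 : ℂ)⁻¹ • (v + A v) := fun v => rfl
  have hAP : ∀ v, A (P v) = P v := by
    intro v
    rw [hPv, map_smul, map_add, hA, add_comm]
  have hP : ∀ v, P (P v) = P v := by
    intro v
    conv_lhs => rw [hPv (P v), hAP]
    module
  have htr := hb_trace_of_idem P hP
  have hker : LinearMap.ker P = LinearMap.ker (A + LinearMap.id) := by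
    ext v
    simp only [LinearMap.mem_ker, hPv, LinearMap.add_apply, LinearMap.id_apply]
    constructor
    · intro h
      have := congrArg (fun w => (2 : ℂ) • w) h
      simp only [smul_smul, smul_zero] at this
      rw [show (2 : ℂ) * 2⁻¹ = 1 by norm_num, one_smul] at this
      rw [add_comm]; exact this
    · intro h
      rw [add_comm, h, smul_zero]
  have hrn := LinearMap.finrank_range_add_finrank_ker P
  rw [hker] at hrn
  have htr2 : LinearMap.trace ℂ V P = (2 : ℂ)⁻¹ * ((finrank ℂ V : ℂ) + LinearMap.trace ℂ V A) := by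
    rw [hPdef, map_smul, map_add, LinearMap.trace_id, smul_eq_mul]
  have hrn' : (finrank ℂ (LinearMap.range P) : ℂ) + finrank ℂ (LinearMap.ker (A + LinearMap.id))
      = finrank ℂ V := by exact_mod_cast hrn
  rw [htr] at htr2
  linear_combination 2 * hrn' - 2 * htr2

/-- order three: `3 dim ker (B² + B + 1) + tr B + tr B² = 2 dim V` -/
theorem hb_finrank_ker_cube (B : V →ₗ[ℂ] V) (hB : ∀ v, B (B (B v)) = v) :
    (3 * finrank ℂ (LinearMap.ker (B ∘ₗ B + B + LinearMap.id)) : ℂ) + LinearMap.trace ℂ V B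
      + LinearMap.trace ℂ V (B ∘ₗ B) = 2 * finrank ℂ V := by
  set P : V →ₗ[ℂ] V := (3 : ℂ)⁻¹ • (LinearMap.id + B + B ∘ₗ B) with hPdef
  have hPv : ∀ v, P v = (3 : ℂ)⁻¹ • (v + B v + B (B v)) := fun v => rfl
  have hBP : ∀ v, B (P v) = P v := by
    intro v
    rw [hPv, map_smul, map_add, map_add, hB]
    congr 1
    abel
  have hP : ∀ v, P (P v) = P v := by
    intro v
    conv_lhs => rw [hPv (P v), hBP, hBP]
    module
  have htr := hb_trace_of_idem P hP
  have hker : LinearMap.ker P = LinearMap.ker (B ∘ₗ B + B + LinearMap.id) := by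
    ext v
    simp only [LinearMap.mem_ker, hPv, LinearMap.add_apply, LinearMap.id_apply,
      LinearMap.comp_apply]
    constructor
    · intro h
      have := congrArg (fun w => (3 : ℂ) • w) h
      simp only [smul_smul, smul_zero] at this
      rw [show (3 : ℂ) * 3⁻¹ = 1 by norm_num, one_smul] at this
      rw [← this]; abel
    · intro h
      have : v + B v + B (B v) = 0 := by rw [← h]; abel
      rw [this, smul_zero]
  have hrn := LinearMap.finrank_range_add_finrank_ker P
  rw [hker] at hrn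
  have htr2 : LinearMap.trace ℂ V P = (3 : ℂ)⁻¹ * ((finrank ℂ V : ℂ) + LinearMap.trace ℂ V B
      + LinearMap.trace ℂ V (B ∘ₗ B)) := by
    rw [hPdef, map_smul, map_add, map_add, LinearMap.trace_id, smul_eq_mul]
  have hrn' : (finrank ℂ (LinearMap.range P) : ℂ)
      + finrank ℂ (LinearMap.ker (B ∘ₗ B + B + LinearMap.id)) = finrank ℂ V := by
    exact_mod_cast hrn
  rw [htr] at htr2
  linear_combination 3 * hrn' - 3 * htr2

end proj

/-! ## The induced cocycle -/

section cocycle

variable {G : Type} [Group G] {X : Type} [MulAction G X] (x₀ : X)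
variable (s : X → G) (hs : ∀ x, s x • x₀ = x)

/-- `s(gx)⁻¹ g s(x)` lies in the stabilizer of `x₀` -/
def hbElt (g : G) (x : X) : MulAction.stabilizer G x₀ :=
  ⟨(s (g • x))⁻¹ * g * s x, by
    rw [MulAction.mem_stabilizer_iff, mul_smul, mul_smul, hs x, inv_smul_eq_iff, hs]⟩

theorem hbElt_mul (g h : G) (x : X) :
    hbElt x₀ s hs (g * h) x = hbElt x₀ s hs g (h • x) * hbElt x₀ s hs h x := by
  apply Subtype.ext
  show (s ((g * h) • x))⁻¹ * (g * h) * s x
    = ((s (g • h • x))⁻¹ * g * s (h • x)) * ((s (h • x))⁻¹ * h * s x)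
  rw [mul_smul]
  group

/-- the cocycle `c_φ(g)(x) = φ(s(gx)⁻¹ g s(x))` -/
noncomputable def hbCoc (φ : Additive (MulAction.stabilizer G x₀) →+ ℂ) (g : G) : X → ℂ :=
  fun x => φ (Additive.ofMul (hbElt x₀ s hs g x))

theorem hbCoc_mul (φ : Additive (MulAction.stabilizer G x₀) →+ ℂ) (g h : G) (x : X) :
    hbCoc x₀ s hs φ (g * h) x = hbCoc x₀ s hs φ g (h • x) + hbCoc x₀ s hs φ h x := by
  unfold hbCoc
  rw [hbElt_mul, ofMul_mul, map_add]

/-- the cocycle, linear in `φ` -/
noncomputable def hbCocL (g : G) :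
    (Additive (MulAction.stabilizer G x₀) →+ ℂ) →ₗ[ℂ] (X → ℂ) where
  toFun φ := hbCoc x₀ s hs φ g
  map_add' _ _ := rfl
  map_smul' _ _ := rfl

theorem hbCocL_apply (g : G) (φ : Additive (MulAction.stabilizer G x₀) →+ ℂ) :
    hbCocL x₀ s hs g φ = hbCoc x₀ s hs φ g := rfl

/-- a homomorphism whose cocycle is a coboundary on generators vanishes -/
theorem hb_eq_zero_of_coboundary (S U : G) (hgen : Subgroup.closure {S, U} = ⊤)
    (φ : Additive (MulAction.stabilizer G x₀) →+ ℂ) (v : X → ℂ)
    (h1 : ∀ x, hbCoc x₀ s hs φ S x = v (S • x) - v x)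
    (h2 : ∀ x, hbCoc x₀ s hs φ U x = v (U • x) - v x) : φ = 0 := by
  set d : G → X → ℂ := fun g x => hbCoc x₀ s hs φ g x - (v (g • x) - v x) with hddef
  have hd : ∀ g h x, d (g * h) x = d g (h • x) + d h x := by
    intro g h x
    simp only [hddef]
    rw [hbCoc_mul, mul_smul]
    ring
  have hd1 : ∀ x, d 1 x = 0 := by
    intro x
    have := hd 1 1 x
    rw [mul_one, one_smul] at this
    linear_combination -this
  let H : Subgroup G :=
    { carrier := {g | ∀ x, d g x = 0}
      one_mem' := hd1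
      mul_mem' := by
        intro g h hg hh x
        rw [hd, hg, hh, add_zero]
      inv_mem' := by
        intro g hg x
        have h := hd g⁻¹ g (g⁻¹ • x)
        rw [inv_mul_cancel, hd1, smul_inv_smul, hg, add_zero] at h
        exact h.symm }
  have hH : H = ⊤ := by
    rw [eq_top_iff, ← hgen, Subgroup.closure_le]
    rintro g (rfl | rfl)
    · intro x
      show hbCoc x₀ s hs φ g x - (v (g • x) - v x) = 0
      rw [h1]; ring
    · intro x
      show hbCoc x₀ s hs φ g x - (v (g • x) - v x) = 0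
      rw [h2]; ring
  have hall : ∀ g x, d g x = 0 := by
    intro g
    have : g ∈ H := by rw [hH]; trivial
    exact this
  set σ : MulAction.stabilizer G x₀ := ⟨s x₀, hs x₀⟩ with hσ
  have key : ∀ γ : MulAction.stabilizer G x₀, φ (Additive.ofMul γ) = 0 := by
    intro γ
    have hγ : (γ : G) • x₀ = x₀ := γ.2
    have h0 := hall (γ : G) x₀
    simp only [hddef] at h0
    rw [hγ, sub_self, sub_zero] at h0
    have helt : hbElt x₀ s hs (γ : G) x₀ = σ⁻¹ * γ * σ := by
      apply Subtype.ext
      show (s ((γ : G) • x₀))⁻¹ * (γ : G) * s x₀ = (s x₀)⁻¹ * (γ : G) * s x₀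
      rw [hγ]
    unfold hbCoc at h0
    rw [helt, ofMul_mul, ofMul_mul, map_add, map_add, ofMul_inv, map_neg] at h0
    linear_combination h0
  ext a
  exact key (Additive.toMul a)

end cocycle

/-! ## The bound -/

section bound

variable {G : Type} [Group G] {X : Type} [Fintype X] [DecidableEq X] [MulAction G X]
  [MulAction.IsPretransitive G X]

theorem hom_bound (S U ε : G) (hgen : Subgroup.closure {S, U} = ⊤)
    (hS : S * S = ε) (hU : U * U * U = ε) (hε : ε * ε = 1) (hεc : ∀ g : G, ε * g = g * ε)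
    (hεX : ∀ x : X, ε • x = x) (x₀ : X) :
    Module.Finite ℂ (Additive (MulAction.stabilizer G x₀) →+ ℂ) ∧
      6 * finrank ℂ (Additive (MulAction.stabilizer G x₀) →+ ℂ)
        + 3 * Nat.card (MulAction.fixedBy X S) + 4 * Nat.card (MulAction.fixedBy X U)
        ≤ Fintype.card X + 6 := by
  classical
  choose s hs using fun x : X => MulAction.exists_smul_eq G x₀ x
  set A : (X → ℂ) →ₗ[ℂ] (X → ℂ) := hbPre (fun x : X => S • x) with hAdef
  set B : (X → ℂ) →ₗ[ℂ] (X → ℂ) := hbPre (fun x : X => U • x) with hBdef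
  have hSS : ∀ x : X, S • S • x = x := by
    intro x; rw [← mul_smul, hS, hεX]
  have hUUU : ∀ x : X, U • U • U • x = x := by
    intro x; rw [← mul_smul, ← mul_smul, hU, hεX]
  have hA : ∀ v, A (A v) = v := by
    intro v; ext x
    show v (S • S • x) = v x
    rw [hSS]
  have hB : ∀ v, B (B (B v)) = v := by
    intro v; ext x
    show v (U • U • U • x) = v x
    rw [hUUU]
  set K₁ := LinearMap.ker (A + LinearMap.id) with hK₁
  set K₂ := LinearMap.ker (B ∘ₗ B + B + LinearMap.id) with hK₂
  -- the cocycle vanishes at `ε`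
  have hεx₀ : ε ∈ MulAction.stabilizer G x₀ := hεX x₀
  have hcε : ∀ (φ : Additive (MulAction.stabilizer G x₀) →+ ℂ) (x : X),
      hbCoc x₀ s hs φ ε x = 0 := by
    intro φ x
    have helt : hbElt x₀ s hs ε x = ⟨ε, hεx₀⟩ := by
      apply Subtype.ext
      show (s (ε • x))⁻¹ * ε * s x = ε
      rw [hεX, mul_assoc, hεc, ← mul_assoc, inv_mul_cancel, one_mul]
    have hsq : (⟨ε, hεx₀⟩ : MulAction.stabilizer G x₀) * ⟨ε, hεx₀⟩ = 1 := Subtype.ext hε
    have h2 : φ (Additive.ofMul (⟨ε, hεx₀⟩ : MulAction.stabilizer G x₀))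
        + φ (Additive.ofMul (⟨ε, hεx₀⟩ : MulAction.stabilizer G x₀)) = 0 := by
      rw [← map_add, ← ofMul_mul, hsq, ofMul_one, map_zero]
    unfold hbCoc
    rw [helt]
    linear_combination (1 / 2 : ℂ) * h2
  have hc1 : ∀ φ, hbCocL x₀ s hs S φ ∈ K₁ := by
    intro φ
    rw [hK₁, LinearMap.mem_ker]
    ext x
    show hbCoc x₀ s hs φ S (S • x) + hbCoc x₀ s hs φ S x = 0
    rw [← hbCoc_mul, hS, hcε]
  have hc2 : ∀ φ, hbCocL x₀ s hs U φ ∈ K₂ := by
    intro φ
    rw [hK₂, LinearMap.mem_ker]
    ext x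
    show hbCoc x₀ s hs φ U (U • U • x) + hbCoc x₀ s hs φ U (U • x) + hbCoc x₀ s hs φ U x = 0
    have h3 := hbCoc_mul x₀ s hs φ (U * U) U x
    have h4 := hbCoc_mul x₀ s hs φ U U (U • x)
    rw [hU, hcε] at h3
    linear_combination -h3 - h4
  set dA : (X → ℂ) →ₗ[ℂ] (X → ℂ) := A - LinearMap.id with hdA
  set dB : (X → ℂ) →ₗ[ℂ] (X → ℂ) := B - LinearMap.id with hdB
  have hdAv : ∀ v, dA v = A v - v := fun v => rfl
  have hdBv : ∀ v, dB v = B v - v := fun v => rfl
  have hδ1 : ∀ v, dA v ∈ K₁ := by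
    intro v
    rw [hK₁, LinearMap.mem_ker, hdAv]
    simp only [LinearMap.add_apply, LinearMap.id_apply, map_sub, hA]
    abel
  have hδ2 : ∀ v, dB v ∈ K₂ := by
    intro v
    rw [hK₂, LinearMap.mem_ker, hdBv]
    simp only [LinearMap.add_apply, LinearMap.id_apply, map_sub, hB,
      LinearMap.comp_apply]
    abel
  set Ψ : (Additive (MulAction.stabilizer G x₀) →+ ℂ) →ₗ[ℂ] (K₁ × K₂) :=
    ((hbCocL x₀ s hs S).codRestrict K₁ hc1).prod ((hbCocL x₀ s hs U).codRestrict K₂ hc2) with hΨ
  set δ : (X → ℂ) →ₗ[ℂ] (K₁ × K₂) :=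
    (dA.codRestrict K₁ hδ1).prod (dB.codRestrict K₂ hδ2) with hδ
  -- the key fact
  have hkey : ∀ φ v, Ψ φ = δ v → φ = 0 := by
    intro φ v h
    have e1 : hbCocL x₀ s hs S φ = dA v := congrArg (fun p => (p.1 : X → ℂ)) h
    have e2 : hbCocL x₀ s hs U φ = dB v := congrArg (fun p => (p.2 : X → ℂ)) h
    refine hb_eq_zero_of_coboundary x₀ s hs S U hgen φ v (fun x => ?_) (fun x => ?_)
    · exact congrFun e1 x
    · exact congrFun e2 x
  have hinj : Function.Injective Ψ := by
    rw [← LinearMap.ker_eq_bot, LinearMap.ker_eq_bot']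
    intro φ h
    exact hkey φ 0 (by rw [h, map_zero])
  have hdisj : Disjoint (LinearMap.range Ψ) (LinearMap.range δ) := by
    rw [Submodule.disjoint_def]
    rintro _ ⟨φ, rfl⟩ ⟨v, hv⟩
    rw [hkey φ v hv.symm, map_zero]
  have hfin : Module.Finite ℂ (Additive (MulAction.stabilizer G x₀) →+ ℂ) :=
    Module.Finite.of_injective Ψ hinj
  refine ⟨hfin, ?_⟩
  -- dimension count
  have h1 : finrank ℂ (LinearMap.range Ψ) = finrank ℂ (Additive (MulAction.stabilizer G x₀) →+ ℂ) :=
    LinearMap.finrank_range_of_inj hinj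
  have h2 := Submodule.finrank_add_finrank_le_of_disjoint hdisj
  rw [Module.finrank_prod, h1] at h2
  have h3 := LinearMap.finrank_range_add_finrank_ker δ
  rw [Module.finrank_pi_fintype] at h3
  -- kernel of `δ` = constants
  have hker : finrank ℂ (LinearMap.ker δ) ≤ 1 := by
    have hle : LinearMap.ker δ ≤ Submodule.span ℂ {(fun _ : X => (1 : ℂ))} := by
      intro v hv
      rw [LinearMap.mem_ker] at hv
      have e1 : dA v = 0 := congrArg (fun p => (p.1 : X → ℂ)) hv
      have e2 : dB v = 0 := congrArg (fun p => (p.2 : X → ℂ)) hv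
      have f1 : ∀ x, v (S • x) = v x := fun x => by
        have h := congrFun e1 x
        rw [hdAv] at h
        exact sub_eq_zero.mp h
      have f2 : ∀ x, v (U • x) = v x := fun x => by
        have h := congrFun e2 x
        rw [hdBv] at h
        exact sub_eq_zero.mp h
      let H : Subgroup G :=
        { carrier := {g | ∀ x, v (g • x) = v x}
          one_mem' := fun x => by rw [one_smul]
          mul_mem' := by
            intro g h hg hh x
            rw [mul_smul, hg, hh]
          inv_mem' := by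
            intro g hg x
            have := hg (g⁻¹ • x)
            rw [smul_inv_smul] at this
            exact this.symm }
      have hH : H = ⊤ := by
        rw [eq_top_iff, ← hgen, Subgroup.closure_le]
        rintro g (rfl | rfl)
        · exact f1
        · exact f2
      have hconst : ∀ x, v x = v x₀ := by
        intro x
        obtain ⟨g, rfl⟩ := MulAction.exists_smul_eq G x₀ x
        have : g ∈ H := by rw [hH]; trivial
        exact this x₀
      rw [Submodule.mem_span_singleton]
      refine ⟨v x₀, ?_⟩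
      ext x
      simp [hconst x]
    calc finrank ℂ (LinearMap.ker δ)
        ≤ finrank ℂ (Submodule.span ℂ {(fun _ : X => (1 : ℂ))}) := Submodule.finrank_mono hle
      _ ≤ 1 := by
          have h := finrank_span_le_card (R := ℂ) ({(fun _ : X => (1 : ℂ))} : Set (X → ℂ))
          simpa using h
  simp only [Module.finrank_self, Finset.sum_const, Finset.card_univ, smul_eq_mul, mul_one] at h3
  -- the eigenspace dimensions
  have e1 := hb_finrank_ker_invol A hA
  have e2 := hb_finrank_ker_cube B hB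
  have hBB : B ∘ₗ B = hbPre (fun x : X => U • U • x) := by
    ext v x; rfl
  have hfixUU : Nat.card {x : X // U • U • x = x} = Nat.card {x : X // U • x = x} := by
    apply Nat.card_congr
    refine Equiv.subtypeEquivRight fun x => ⟨fun h => ?_, fun h => by rw [h, h]⟩
    have := hUUU x
    rw [h] at this
    exact this
  rw [Module.finrank_pi_fintype] at e1 e2
  simp only [Module.finrank_self, Finset.sum_const, Finset.card_univ, smul_eq_mul, mul_one] at e1 e2
  rw [hAdef, hbPre_trace] at e1
  rw [hBB, hbPre_trace, hBdef, hbPre_trace, hfixUU] at e2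
  rw [← hAdef, ← hK₁] at e1
  have e1' : 2 * finrank ℂ K₁ + Nat.card {x : X // S • x = x} = Fintype.card X := by
    exact_mod_cast e1
  have e2' : 3 * finrank ℂ K₂ + Nat.card {x : X // U • x = x} + Nat.card {x : X // U • x = x}
      = 2 * Fintype.card X := by
    rw [← hBdef] at e2
    exact_mod_cast e2
  have hf1 : Nat.card (MulAction.fixedBy X S) = Nat.card {x : X // S • x = x} := rfl
  have hf2 : Nat.card (MulAction.fixedBy X U) = Nat.card {x : X // U • x = x} := rfl
  rw [hf1, hf2]
  omega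

end bound

end Fermat.Agent.S21Lib
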