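/-
S21, chunk P3 (helper4): `Hom(Γ₀(N), ℂ)` is finite-dimensional of dimension at most
`ψ(N)/6 - ν₂(N)/2 - 2 ν₃(N)/3 + 1` (`= 2g + c - 1`).

Specialisation of `hom_bound` (Lib/S21/HomBound.lean) to `G = SL(2, ℤ)` acting on
`X = P1 (ZMod N)`, whose base point `[1 : 0]` has stabilizer `Γ₀(N)`.
-/
import Mathlib
import Fermat.Agent.Lib.S21.HomBound
import Fermat.Agent.Lib.S20.ProjLineCoset
import Fermat.Agent.Lib.S20.CombFix

set_option autoImplicit false

namespace Fermat.Agent.S21Lib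

open Module CongruenceSubgroup Fermat.Agent.S20Lib
open scoped MatrixGroups

theorem hbG_closure : Subgroup.closure {ModularGroup.S, ModularGroup.S * ModularGroup.T}
    = (⊤ : Subgroup SL(2, ℤ)) := by
  rw [eq_top_iff, ← SpecialLinearGroup.SL2Z_generators, Subgroup.closure_le]
  rintro g (rfl | rfl)
  · exact Subgroup.subset_closure (Set.mem_insert _ _)
  · have h1 : ModularGroup.S ∈ Subgroup.closure {ModularGroup.S, ModularGroup.S * ModularGroup.T} :=
      Subgroup.subset_closure (Set.mem_insert _ _)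
    have h2 : ModularGroup.S * ModularGroup.T ∈
        Subgroup.closure {ModularGroup.S, ModularGroup.S * ModularGroup.T} :=
      Subgroup.subset_closure (Set.mem_insert_of_mem _ rfl)
    have h3 := Subgroup.mul_mem _ (Subgroup.inv_mem _ h1) h2
    rwa [inv_mul_cancel_left] at h3

theorem hbG_S_sq : ModularGroup.S * ModularGroup.S = (-1 : SL(2, ℤ)) := by decide

theorem hbG_U_cube :
    (ModularGroup.S * ModularGroup.T) * (ModularGroup.S * ModularGroup.T)
      * (ModularGroup.S * ModularGroup.T) = (-1 : SL(2, ℤ)) := by decide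

theorem hbG_neg_one_sq : (-1 : SL(2, ℤ)) * (-1) = 1 := by decide

theorem hbG_neg_one_comm (g : SL(2, ℤ)) : (-1 : SL(2, ℤ)) * g = g * (-1) := by
  rw [neg_mul, one_mul, mul_neg, mul_one]

theorem hbG_neg_one_smul {R : Type*} [CommRing R] (x : P1 R) : (-1 : SL(2, ℤ)) • x = x := by
  obtain ⟨a, c, h, rfl⟩ := P1.exists_rep x
  rw [P1.smul_mk, P1.mk_eq_mk_iff]
  simp

variable (N : ℕ) [NeZero N]

theorem hbG_stabilizer :
    MulAction.stabilizer SL(2, ℤ) (P1.base N) = Gamma0 N := by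
  ext g
  rw [MulAction.mem_stabilizer_iff, P1.smul_base_eq_iff]

theorem hbG_main :
    Module.Finite ℂ (Additive (Gamma0 N) →+ ℂ) ∧
      6 * finrank ℂ (Additive (Gamma0 N) →+ ℂ) + 3 * ModularCurve.nuTwo N
        + 4 * ModularCurve.nuThree N ≤ ModularCurve.dedekindPsi N + 6 := by
  classical
  letI : Fintype (P1 (ZMod N)) := Fintype.ofFinite _
  haveI : MulAction.IsPretransitive SL(2, ℤ) (P1 (ZMod N)) := ⟨fun x y => by
    obtain ⟨g, rfl⟩ := P1.exists_smul_base N x
    obtain ⟨h, rfl⟩ := P1.exists_smul_base N y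
    exact ⟨h * g⁻¹, by rw [mul_smul, inv_smul_smul]⟩⟩
  have hb := hom_bound (X := P1 (ZMod N)) ModularGroup.S (ModularGroup.S * ModularGroup.T) (-1)
    hbG_closure hbG_S_sq hbG_U_cube hbG_neg_one_sq hbG_neg_one_comm hbG_neg_one_smul (P1.base N)
  rw [P1.card_fixedBy_S_zmod, P1.card_fixedBy_ST_zmod, ← Nat.card_eq_fintype_card,
    P1.card_zmod] at hb
  have key : ∀ H : Subgroup SL(2, ℤ), H = Gamma0 N →
      (Module.Finite ℂ (Additive H →+ ℂ) ∧
        6 * finrank ℂ (Additive H →+ ℂ) + 3 * ModularCurve.nuTwo N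
          + 4 * ModularCurve.nuThree N ≤ ModularCurve.dedekindPsi N + 6) →
      (Module.Finite ℂ (Additive (Gamma0 N) →+ ℂ) ∧
        6 * finrank ℂ (Additive (Gamma0 N) →+ ℂ) + 3 * ModularCurve.nuTwo N
          + 4 * ModularCurve.nuThree N ≤ ModularCurve.dedekindPsi N + 6) := by
    rintro H rfl h
    exact h
  exact key _ (hbG_stabilizer N) hb

/-- `Hom(Γ₀(N), ℂ)` is finite-dimensional. -/
theorem finite_hom_gamma0 : Module.Finite ℂ (Additive (Gamma0 N) →+ ℂ) := (hbG_main N).1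

/-- `dim Hom(Γ₀(N), ℂ) ≤ ψ/6 - ν₂/2 - 2ν₃/3 + 1`. -/
theorem finrank_hom_gamma0_le :
    (finrank ℂ (Additive (Gamma0 N) →+ ℂ) : ℚ) ≤
      (ModularCurve.dedekindPsi N : ℚ) / 6 - (ModularCurve.nuTwo N : ℚ) / 2
        - 2 * (ModularCurve.nuThree N : ℚ) / 3 + 1 := by
  have h := (hbG_main N).2
  have h' : (6 * finrank ℂ (Additive (Gamma0 N) →+ ℂ) + 3 * ModularCurve.nuTwo N
      + 4 * ModularCurve.nuThree N : ℚ) ≤ ModularCurve.dedekindPsi N + 6 := by exact_mod_cast h
  linarith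

end Fermat.Agent.S21Lib
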