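/-
S21, file D (helper2): the space of parabolic homomorphisms of `Γ₀(N)` has dimension at most
`2 * genusFormula N`.  Assembly of
* P3 (helper4, `Lib/S21/HomBoundGamma0`): `dim Hom(Γ₀(N), ℂ) ≤ ψ/6 - ν₂/2 - 2ν₃/3 + 1`,
* P4 (`Lib/S21/EisPeriod`): `dim parabolicHoms + dim M₂ ≤ dim Hom + dim S₂`,
* S20 (`finalCore_arith` applied to a system of generators): `dim M₂ + 1 = dim S₂ + #cusps`,
* chunk F4 (`Lib/S20/CombCusp`): `#cusps = cuspCount N`.
`finite_hom_gamma0` is exported by `Lib/S21/HomBoundGamma0`.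
-/
import Fermat.Agent.Lib.S21.EisPeriod
import Fermat.Agent.Lib.S21.HomBoundGamma0
import Fermat.Agent.Lib.S20.CombCusp
import Fermat.Agent.Lib.S20.ConstTerm
import Fermat.Agent.Lib.S20.DualE
import Fermat.Agent.Lib.S20.FinalCore

set_option autoImplicit false

namespace Fermat.Agent.S21Lib

open Fermat.Agent.S20Lib Fermat.Agent.LibS23

/-- `dim M₂(Γ₀(N)) + 1 = dim S₂(Γ₀(N)) + cuspCount N`. -/
theorem parBound_mdim_two (N : ℕ) [NeZero N] :
    Module.finrank ℂ (ModularForm (CongruenceSubgroup.Gamma0 N) 2) + 1 =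
      Module.finrank ℂ (CuspForm (CongruenceSubgroup.Gamma0 N) 2) + ModularCurve.cuspCount N := by
  obtain ⟨G⟩ := exists_gens N
  have h := (finalCore_arith G.wt (mdim N) (sdim N) _ _ _ G.wt_even G.wt_nonneg G.mdim_eq
    G.sdim_eq mdim_zero (fun k hk => sdim_of_nonpos hk) G.sum_S G.sum_U
    exists_mdim_eq_sdim_add).2
  rw [card_orbits_sT] at h
  exact h

/-- **S21, file D.** -/
theorem parabolicHoms_finrank_le (N : ℕ) [NeZero N] :
    (Module.finrank ℂ (ModularCurve.Period.parabolicHoms ℂ (CongruenceSubgroup.Gamma0 N) ℂ) : ℚ)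
      ≤ 2 * ModularCurve.genusFormula N := by
  have := finite_hom_gamma0 N
  exact finrank_parabolicHoms_le N (finrank_hom_gamma0_le N) (parBound_mdim_two N)

end Fermat.Agent.S21Lib
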