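/-
S21 algebra, file B (helper2): the Shapiro cocycle attached to a homomorphism `Γ → ℂ`, where
`Γ` is the stabiliser of a base point `x₀` of a transitive `G`-set `X`.
Statements verbatim from docs row `S21_algebra`.
-/
import Mathlib

set_option autoImplicit false

namespace Fermat.Agent.S21Lib

open scoped BigOperators

section B

variable {G : Type*} [Group G] {X : Type*} [MulAction G X] [MulAction.IsPretransitive G X]
  (x₀ : X) (Γ : Subgroup G) (hΓ : ∀ g : G, g • x₀ = x₀ ↔ g ∈ Γ)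

/-- a section of `g ↦ g • x₀`. -/
noncomputable def sec (x : X) : G := (MulAction.exists_smul_eq G x₀ x).choose

theorem sec_smul (x : X) : (sec x₀ x : G) • x₀ = x := (MulAction.exists_smul_eq G x₀ x).choose_spec

include hΓ in
theorem sec_mem (g : G) (x : X) : (sec x₀ (g • x))⁻¹ * g * sec x₀ x ∈ Γ := by
  rw [← hΓ, mul_smul, mul_smul, sec_smul, inv_smul_eq_iff, sec_smul]

/-- the (Shapiro) cocycle attached to a homomorphism `Γ → ℂ`. -/
noncomputable def coc (φ : Additive Γ →+ ℂ) (g : G) (x : X) : ℂ :=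
  φ (Additive.ofMul ⟨(sec x₀ (g • x))⁻¹ * g * sec x₀ x, sec_mem x₀ Γ hΓ g x⟩)

/-- the value of the cocycle, with the target point given up to equality -/
theorem coc_eq (φ : Additive Γ →+ ℂ) (g : G) (x y : X) (hy : g • x = y)
    (h : (sec x₀ y)⁻¹ * g * sec x₀ x ∈ Γ) :
    coc x₀ Γ hΓ φ g x = φ (Additive.ofMul ⟨(sec x₀ y)⁻¹ * g * sec x₀ x, h⟩) := by
  subst hy
  rfl

theorem coc_mul (φ : Additive Γ →+ ℂ) (g h : G) (x : X) :
    coc x₀ Γ hΓ φ (g * h) x = coc x₀ Γ hΓ φ g (h • x) + coc x₀ Γ hΓ φ h x := by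
  have hm : (sec x₀ (g • h • x))⁻¹ * (g * h) * sec x₀ x ∈ Γ := by
    have := sec_mem x₀ Γ hΓ (g * h) x
    rwa [mul_smul] at this
  rw [coc_eq x₀ Γ hΓ φ (g * h) x (g • h • x) (mul_smul g h x) hm]
  unfold coc
  rw [← map_add, ← ofMul_mul]
  congr 2
  apply Subtype.ext
  show (sec x₀ (g • h • x))⁻¹ * (g * h) * sec x₀ x =
    ((sec x₀ (g • h • x))⁻¹ * g * sec x₀ (h • x)) * ((sec x₀ (h • x))⁻¹ * h * sec x₀ x)
  group

theorem coc_add (φ ψ : Additive Γ →+ ℂ) (g : G) (x : X) :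
    coc x₀ Γ hΓ (φ + ψ) g x = coc x₀ Γ hΓ φ g x + coc x₀ Γ hΓ ψ g x := rfl

theorem coc_smul (a : ℂ) (φ : Additive Γ →+ ℂ) (g : G) (x : X) :
    coc x₀ Γ hΓ (a • φ) g x = a * coc x₀ Γ hΓ φ g x := rfl

theorem coc_one (φ : Additive Γ →+ ℂ) (x : X) : coc x₀ Γ hΓ φ 1 x = 0 := by
  have h := coc_mul x₀ Γ hΓ φ 1 1 x
  rw [one_mul, one_smul] at h
  linear_combination -h

/-- the cocycle at the base point computes `φ`. -/
theorem coc_base (φ : Additive Γ →+ ℂ) (γ : Γ) :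
    coc x₀ Γ hΓ φ (γ : G) x₀ = φ (Additive.ofMul γ) := by
  have hγ : (γ : G) • x₀ = x₀ := (hΓ _).mpr γ.2
  have hσ : sec x₀ x₀ ∈ Γ := (hΓ _).mp (sec_smul x₀ x₀)
  have hm : (sec x₀ x₀)⁻¹ * (γ : G) * sec x₀ x₀ ∈ Γ :=
    Γ.mul_mem (Γ.mul_mem (Γ.inv_mem hσ) γ.2) hσ
  rw [coc_eq x₀ Γ hΓ φ (γ : G) x₀ x₀ hγ hm]
  have e : (⟨(sec x₀ x₀)⁻¹ * (γ : G) * sec x₀ x₀, hm⟩ : Γ) =
      (⟨sec x₀ x₀, hσ⟩ : Γ)⁻¹ * γ * ⟨sec x₀ x₀, hσ⟩ := Subtype.ext rfl
  rw [e, ofMul_mul, ofMul_mul, ofMul_inv, map_add, map_add, map_neg]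
  ring

/-- a homomorphism whose cocycle is a coboundary on two generators vanishes. -/
theorem eq_zero_of_coc_generators (φ : Additive Γ →+ ℂ) (v : X → ℂ) (s u : G)
    (hgen : Subgroup.closure {s, u} = ⊤)
    (hs : ∀ x, coc x₀ Γ hΓ φ s x = v (s • x) - v x)
    (hu : ∀ x, coc x₀ Γ hΓ φ u x = v (u • x) - v x) : φ = 0 := by
  have key : ∀ g : G, ∀ x, coc x₀ Γ hΓ φ g x = v (g • x) - v x := by
    intro g
    have hg : g ∈ Subgroup.closure {s, u} := by rw [hgen]; trivial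
    induction hg using Subgroup.closure_induction with
    | mem y hy =>
      rcases hy with rfl | rfl
      · exact hs
      · exact hu
    | one =>
      intro x
      rw [coc_one, one_smul, sub_self]
    | mul a b _ _ iha ihb =>
      intro x
      rw [coc_mul, iha, ihb, mul_smul]
      ring
    | inv a _ iha =>
      intro x
      have h := coc_mul x₀ Γ hΓ φ a a⁻¹ x
      rw [mul_inv_cancel, coc_one, iha, smul_inv_smul] at h
      linear_combination -h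
  refine AddMonoidHom.ext fun γ' => ?_
  obtain ⟨γ, rfl⟩ : ∃ γ : Γ, Additive.ofMul γ = γ' := ⟨Additive.toMul γ', rfl⟩
  rw [← coc_base x₀ Γ hΓ φ γ, key, (hΓ _).mpr γ.2, sub_self]
  rfl

/-- the cocycle vanishes on a central element of order two lying in `Γ`. -/
theorem coc_central (φ : Additive Γ →+ ℂ) (z : G) (hzc : ∀ g, g * z = z * g) (hzΓ : z ∈ Γ)
    (hz2 : z * z = 1) (x : X) : coc x₀ Γ hΓ φ z x = 0 := by
  have hzx : z • x = x := by
    conv_lhs => rw [← sec_smul (G := G) x₀ x]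
    rw [← mul_smul, ← hzc, mul_smul, (hΓ z).mpr hzΓ, sec_smul]
  have hm : (sec x₀ x)⁻¹ * z * sec x₀ x ∈ Γ := by
    have := sec_mem x₀ Γ hΓ z x
    rwa [hzx] at this
  rw [coc_eq x₀ Γ hΓ φ z x x hzx hm]
  have e : (⟨(sec x₀ x)⁻¹ * z * sec x₀ x, hm⟩ : Γ) = ⟨z, hzΓ⟩ := by
    apply Subtype.ext
    show (sec x₀ x)⁻¹ * z * sec x₀ x = z
    rw [mul_assoc, ← hzc, ← mul_assoc, inv_mul_cancel, one_mul]
  rw [e]
  have h2 : φ (Additive.ofMul (⟨z, hzΓ⟩ : Γ)) + φ (Additive.ofMul (⟨z, hzΓ⟩ : Γ)) = 0 := by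
    rw [← map_add, ← ofMul_mul]
    have : (⟨z, hzΓ⟩ : Γ) * ⟨z, hzΓ⟩ = 1 := Subtype.ext hz2
    rw [this, ofMul_one, map_zero]
  have h3 : (2 : ℂ) * φ (Additive.ofMul (⟨z, hzΓ⟩ : Γ)) = 0 := by linear_combination h2
  exact (mul_eq_zero.mp h3).resolve_left two_ne_zero

theorem coc_pow (φ : Additive Γ →+ ℂ) (t : G) (n : ℕ) (x : X) :
    coc x₀ Γ hΓ φ (t ^ n) x = ∑ j ∈ Finset.range n, coc x₀ Γ hΓ φ t (t ^ j • x) := by
  induction n with
  | zero => rw [pow_zero, coc_one, Finset.range_zero, Finset.sum_empty]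
  | succ n ih => rw [pow_succ', coc_mul, ih, Finset.sum_range_succ, add_comm]

/-- if `g` fixes `x`, the value of the cocycle is the value of `φ` on a conjugate of `g`. -/
theorem coc_of_fixed (φ : Additive Γ →+ ℂ) (g : G) (x : X) (hx : g • x = x) :
    ∃ h : (sec x₀ x)⁻¹ * g * sec x₀ x ∈ Γ,
      coc x₀ Γ hΓ φ g x = φ (Additive.ofMul ⟨(sec x₀ x)⁻¹ * g * sec x₀ x, h⟩) := by
  have hm : (sec x₀ x)⁻¹ * g * sec x₀ x ∈ Γ := by
    have := sec_mem x₀ Γ hΓ g x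
    rwa [hx] at this
  exact ⟨hm, coc_eq x₀ Γ hΓ φ g x x hx hm⟩

end B

end Fermat.Agent.S21Lib
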