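import Mathlib

/-!
# Permutation representations: eigenspace dimensions, coboundaries, orbit sums

File A of the S21 algebra (`finrank parabolicHoms ≤ 2 g`).
-/

set_option autoImplicit false
set_option linter.unusedSectionVars false

namespace Fermat.Agent.S21Lib

open scoped BigOperators

section A

variable {G : Type*} [Group G] {X : Type*} [MulAction G X]

/-- pull-back of functions along the action: `(pull g v) x = v (g • x)`. -/
def pull (g : G) : (X → ℂ) →ₗ[ℂ] (X → ℂ) := LinearMap.funLeft ℂ ℂ (fun x => g • x)

@[simp] theorem pull_apply (g : G) (v : X → ℂ) (x : X) : pull g v x = v (g • x) := rfl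

theorem pull_mul (g h : G) (v : X → ℂ) : pull (g * h) v = pull h (pull g v) := by
  funext x; simp [mul_smul]

theorem pull_one (v : X → ℂ) : pull (1 : G) v = v := by
  funext x; simp

theorem pull_inv_pull (g : G) (v : X → ℂ) : pull g⁻¹ (pull g v) = v := by
  rw [← pull_mul, mul_inv_cancel, pull_one]

theorem pull_pull_inv (g : G) (v : X → ℂ) : pull g (pull g⁻¹ v) = v := by
  rw [← pull_mul, inv_mul_cancel, pull_one]

variable [Fintype X] [DecidableEq X]

/-- the trace of a pull-back is the number of fixed points. -/
theorem trace_pull (g : G) :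
    LinearMap.trace ℂ (X → ℂ) (pull g) = (Nat.card {x : X // g • x = x} : ℂ) := by
  rw [LinearMap.trace_eq_matrix_trace ℂ (Pi.basisFun ℂ X), Matrix.trace]
  have h : ∀ x : X, Matrix.diag (LinearMap.toMatrix (Pi.basisFun ℂ X) (Pi.basisFun ℂ X) (pull g)) x
      = if g • x = x then 1 else 0 := by
    intro x
    simp [LinearMap.toMatrix_apply, pull, LinearMap.funLeft_apply, Pi.single_apply]
  simp_rw [h]
  rw [Finset.sum_boole, Nat.card_eq_fintype_card, Fintype.card_subtype]

/-- `(-1)`-eigenspace of an involution. -/
theorem two_mul_finrank_ker_add (s : G) (hs : ∀ x : X, s • s • x = x) :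
    2 * Module.finrank ℂ (LinearMap.ker (LinearMap.id + pull (X := X) s))
      + Nat.card {x : X // s • x = x} = Nat.card X := by
  have hss : ∀ v : X → ℂ, pull s (pull s v) = v := by
    intro v; funext x; simp [hs]
  set p := LinearMap.ker (LinearMap.id + pull (X := X) s) with hp
  set f : (X → ℂ) →ₗ[ℂ] (X → ℂ) := (1 / 2 : ℂ) • (LinearMap.id - pull (X := X) s) with hf
  have hproj : LinearMap.IsProj p f := by
    refine ⟨fun v => ?_, fun v hv => ?_⟩
    · rw [hp, LinearMap.mem_ker]
      simp only [hf, LinearMap.add_apply, LinearMap.id_coe, id_eq, LinearMap.smul_apply,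
        LinearMap.sub_apply, map_smul, map_sub, hss]
      module
    · rw [hp, LinearMap.mem_ker] at hv
      simp only [LinearMap.add_apply, LinearMap.id_coe, id_eq] at hv
      have h2 : pull s v = -v := by
        rw [eq_neg_iff_add_eq_zero, add_comm]; exact hv
      simp only [hf, LinearMap.smul_apply, LinearMap.sub_apply, LinearMap.id_coe, id_eq, h2]
      module
  have htr := hproj.trace
  rw [hf, map_smul, map_sub, trace_pull, LinearMap.trace_id] at htr
  have hX : (Module.finrank ℂ (X → ℂ) : ℂ) = (Nat.card X : ℂ) := by
    rw [Module.finrank_pi, Nat.card_eq_fintype_card]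
  rw [hX] at htr
  have key : ((2 * Module.finrank ℂ p + Nat.card {x : X // s • x = x} : ℕ) : ℂ)
      = ((Nat.card X : ℕ) : ℂ) := by
    push_cast
    rw [← htr]
    simp only [smul_eq_mul]
    ring
  exact_mod_cast key

/-- kernel of `1 + u + u²` for an element of order dividing three. -/
theorem three_mul_finrank_ker_cyc (u : G) (hu : ∀ x : X, u • u • u • x = x) :
    3 * Module.finrank ℂ (LinearMap.ker (LinearMap.id + pull (X := X) u + pull u ∘ₗ pull u))
      + 2 * Nat.card {x : X // u • x = x} = 2 * Nat.card X := by
  have huuu : ∀ v : X → ℂ, pull u (pull u (pull u v)) = v := by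
    intro v; funext x; simp [hu]
  have huu : (pull (X := X) u ∘ₗ pull u) = pull (u * u) := by
    ext v x; simp [mul_smul]
  have hfix : Nat.card {x : X // (u * u) • x = x} = Nat.card {x : X // u • x = x} := by
    refine Nat.card_congr (Equiv.subtypeEquivRight fun x => ?_)
    rw [mul_smul]
    constructor
    · intro h
      have := congrArg (fun y => u • y) h
      simp only [hu] at this
      exact this.symm
    · intro h; rw [h, h]
  set p := LinearMap.ker (LinearMap.id + pull (X := X) u + pull u ∘ₗ pull u) with hp
  set f : (X → ℂ) →ₗ[ℂ] (X → ℂ) :=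
    (1 / 3 : ℂ) • ((2 : ℂ) • LinearMap.id - pull (X := X) u - pull u ∘ₗ pull u) with hf
  have hproj : LinearMap.IsProj p f := by
    refine ⟨fun v => ?_, fun v hv => ?_⟩
    · rw [hp, LinearMap.mem_ker]
      simp only [hf, LinearMap.add_apply, LinearMap.id_coe, id_eq, LinearMap.smul_apply,
        LinearMap.sub_apply, map_smul, map_sub, LinearMap.comp_apply, huuu]
      module
    · rw [hp, LinearMap.mem_ker] at hv
      simp only [LinearMap.add_apply, LinearMap.id_coe, id_eq, LinearMap.comp_apply] at hv
      have h2 : pull u (pull u v) = -v - pull u v := by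
        rw [eq_sub_iff_add_eq, eq_neg_iff_add_eq_zero, ← hv]; abel
      simp only [hf, LinearMap.smul_apply, LinearMap.sub_apply, LinearMap.id_coe, id_eq,
        LinearMap.comp_apply, h2]
      module
  have htr := hproj.trace
  rw [hf, map_smul, map_sub, map_sub, map_smul, huu, trace_pull, trace_pull, LinearMap.trace_id,
    hfix] at htr
  have hX : (Module.finrank ℂ (X → ℂ) : ℂ) = (Nat.card X : ℂ) := by
    rw [Module.finrank_pi, Nat.card_eq_fintype_card]
  rw [hX] at htr
  have key : ((3 * Module.finrank ℂ p + 2 * Nat.card {x : X // u • x = x} : ℕ) : ℂ)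
      = ((2 * Nat.card X : ℕ) : ℂ) := by
    push_cast
    rw [← htr]
    simp only [smul_eq_mul]
    ring
  exact_mod_cast key

/-- all coboundaries `v - pull g v` lie in the span of those for two generators. -/
theorem sub_pull_mem_range (s u : G) (hgen : Subgroup.closure {s, u} = ⊤) (g : G)
    (v : X → ℂ) :
    v - pull g v ∈ LinearMap.range
      ((LinearMap.id - pull (X := X) s).coprod (LinearMap.id - pull (X := X) u)) := by
  have hg : g ∈ Subgroup.closure {s, u} := by rw [hgen]; trivial
  induction hg using Subgroup.closure_induction generalizing v with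
  | mem x hx =>
    rcases hx with rfl | hx
    · exact ⟨(v, 0), by simp⟩
    · rw [Set.mem_singleton_iff] at hx
      subst hx
      exact ⟨(0, v), by simp⟩
  | one => rw [pull_one, sub_self]; exact Submodule.zero_mem _
  | mul x y _ _ hx hy =>
    have : v - pull (x * y) v = (v - pull x v) + (pull x v - pull y (pull x v)) := by
      rw [pull_mul]; abel
    rw [this]
    exact Submodule.add_mem _ (hx v) (hy _)
  | inv x _ hx =>
    have : v - pull x⁻¹ v = -(pull x⁻¹ v - pull x (pull x⁻¹ v)) := by
      rw [pull_pull_inv]; abel
    rw [this]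
    exact Submodule.neg_mem _ (hx _)

/-- functions of total sum zero are sums of coboundaries for two generators. -/
theorem exists_of_sum_eq_zero [MulAction.IsPretransitive G X] (s u : G)
    (hgen : Subgroup.closure {s, u} = ⊤) (w : X → ℂ) (hw : ∑ x, w x = 0) :
    ∃ v₁ v₂ : X → ℂ, w = (v₁ - pull s v₁) + (v₂ - pull u v₂) := by
  suffices h : w ∈ LinearMap.range
      ((LinearMap.id - pull (X := X) s).coprod (LinearMap.id - pull (X := X) u)) by
    obtain ⟨⟨v₁, v₂⟩, hv⟩ := h
    refine ⟨v₁, v₂, ?_⟩
    rw [← hv]
    simp [LinearMap.coprod_apply]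
  rcases isEmpty_or_nonempty X with hX | ⟨⟨x₀⟩⟩
  · have : w = 0 := Subsingleton.elim _ _
    rw [this]; exact Submodule.zero_mem _
  · have hsingle : ∀ x : X, (Pi.single x 1 - Pi.single x₀ 1 : X → ℂ) ∈ LinearMap.range
        ((LinearMap.id - pull (X := X) s).coprod (LinearMap.id - pull (X := X) u)) := by
      intro x
      obtain ⟨g, hg⟩ := MulAction.exists_smul_eq G x₀ x
      have h1 : pull g (Pi.single x 1 : X → ℂ) = Pi.single x₀ 1 := by
        funext y
        simp only [pull_apply, Pi.single_apply]
        have : g • y = x ↔ y = x₀ := by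
          rw [← hg]; exact (MulAction.injective g).eq_iff
        simp only [this]
      rw [← h1]
      exact sub_pull_mem_range s u hgen g _
    have hwsum : w = ∑ x, w x • (Pi.single x 1 - Pi.single x₀ 1 : X → ℂ) := by
      simp_rw [smul_sub]
      rw [Finset.sum_sub_distrib, ← Finset.sum_smul, hw, zero_smul, sub_zero]
      funext y
      simp [Finset.sum_apply, Pi.single_apply]
    rw [hwsum]
    exact Submodule.sum_mem _ fun x _ => Submodule.smul_mem _ _ (hsingle x)

/-- a function invariant under two generators of a transitive group is constant. -/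
theorem eq_const_of_pull_eq [MulAction.IsPretransitive G X] (s u : G)
    (hgen : Subgroup.closure {s, u} = ⊤) (v : X → ℂ) (hs : pull s v = v) (hu : pull u v = v)
    (x y : X) : v x = v y := by
  have hall : ∀ g : G, pull g v = v := by
    intro g
    have hg : g ∈ Subgroup.closure {s, u} := by rw [hgen]; trivial
    induction hg using Subgroup.closure_induction with
    | mem x hx =>
      rcases hx with rfl | hx
      · exact hs
      · rw [Set.mem_singleton_iff] at hx
        subst hx; exact hu
    | one => exact pull_one v
    | mul x y _ _ hx hy => rw [pull_mul, hx, hy]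
    | inv x _ hx =>
      conv_lhs => rw [← hx]
      exact pull_inv_pull x v
  obtain ⟨g, hg⟩ := MulAction.exists_smul_eq G x y
  rw [← hg, ← pull_apply g v x, hall g]

open Classical in
/-- orbit sums for the cyclic group generated by `t`. -/
noncomputable def orbSum (t : G) :
    (X → ℂ) →ₗ[ℂ] (MulAction.orbitRel.Quotient (Subgroup.zpowers t) X → ℂ) where
  toFun w o := ∑ x : X, if (Quotient.mk'' x : MulAction.orbitRel.Quotient (Subgroup.zpowers t) X) = o
    then w x else 0
  map_add' := by
    intro v w
    funext o
    simp only [Pi.add_apply, ← Finset.sum_add_distrib]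
    refine Finset.sum_congr rfl fun x _ => ?_
    split_ifs <;> simp
  map_smul' := by
    intro a w
    funext o
    simp only [Pi.smul_apply, smul_eq_mul, RingHom.id_apply, Finset.mul_sum]
    refine Finset.sum_congr rfl fun x _ => ?_
    split_ifs <;> simp

open Classical in
theorem orbSum_apply (t : G) (w : X → ℂ)
    (o : MulAction.orbitRel.Quotient (Subgroup.zpowers t) X) :
    orbSum t w o = ∑ x : X,
      if (Quotient.mk'' x : MulAction.orbitRel.Quotient (Subgroup.zpowers t) X) = o
        then w x else 0 := rfl

theorem mk_smul_eq (t : G) (x : X) :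
    (Quotient.mk'' (t • x) : MulAction.orbitRel.Quotient (Subgroup.zpowers t) X)
      = Quotient.mk'' x := by
  apply Quotient.sound'
  rw [MulAction.orbitRel_apply]
  exact ⟨⟨t, Subgroup.mem_zpowers t⟩, rfl⟩

theorem orbSum_pull (t : G) (v : X → ℂ) : orbSum t (pull t v) = orbSum t v := by
  classical
  funext o
  rw [orbSum_apply, orbSum_apply]
  refine Fintype.sum_equiv (MulAction.toPerm t) _ _ fun x => ?_
  simp only [MulAction.toPerm_apply, pull_apply, mk_smul_eq]

theorem orbSum_surjective (t : G) : Function.Surjective (orbSum (X := X) t) := by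
  classical
  intro f
  refine ⟨fun x => if x = Quotient.out (Quotient.mk'' x :
    MulAction.orbitRel.Quotient (Subgroup.zpowers t) X) then f (Quotient.mk'' x) else 0, ?_⟩
  funext o
  rw [orbSum_apply]
  rw [Finset.sum_eq_single (Quotient.out o)]
  · have h1 : (Quotient.mk'' (Quotient.out o) :
        MulAction.orbitRel.Quotient (Subgroup.zpowers t) X) = o := Quotient.out_eq' o
    rw [if_pos h1, h1, if_pos rfl]
  · intro x _ hx
    split_ifs with h1 h2
    · exfalso
      apply hx
      rw [h2, h1]
    · rfl
    · rfl
  · intro h; exact absurd (Finset.mem_univ _) h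

noncomputable instance instFintypeOrb (t : G) :
    Fintype (MulAction.orbitRel.Quotient (Subgroup.zpowers t) X) := Fintype.ofFinite _

theorem sum_orbSum (t : G) (w : X → ℂ) : ∑ o, orbSum t w o = ∑ x, w x := by
  classical
  simp_rw [orbSum_apply]
  rw [Finset.sum_comm]
  refine Finset.sum_congr rfl fun x _ => ?_
  rw [Finset.sum_ite_eq]
  simp

end A

end Fermat.Agent.S21Lib
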